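/-
S55 / 48-SHAPIRO-LEVEL (helper32): Shapiro's lemma for LEVEL cohomology, definitions.

`G` a group with a level structure `𝒰` (Profin15), `π : G →* Γ` a surjection onto a finite group
whose kernel `U₀` contains a level.  `A : Rep k G` is a module "coinduced from the trivial module
`k` of `U₀`", presented by coordinates `c : A ≃ₗ[k] (Γ → k)` with
`c (g • a) δ = c a (δ * π g)`.  (For `A = Rep.res π (Rep.leftRegular k Γ)` take
`c x δ = x.coeff δ⁻¹`, see `Regular.lean`.)
-/
import Fermat.Agent.S55.Profin15.Cohomology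

set_option autoImplicit false

universe u

open CategoryTheory groupCohomology

namespace Fermat.Agent.S55.ShapiroLevel32

open Fermat.Agent.S55.Profin15

variable {k G : Type u} [CommRing k] [Group G]

/-- Restriction of a level structure to a subgroup containing a level. -/
def restrictLevels (𝒰 : LevelStr G) (U₀ : Subgroup G) (h : ∃ V ∈ 𝒰.levels, V ≤ U₀) :
    LevelStr ↥U₀ where
  levels := {W | ∃ V ∈ 𝒰.levels, V ≤ U₀ ∧ W = V.subgroupOf U₀}
  nonempty := by
    obtain ⟨V, hV, hle⟩ := h
    exact ⟨V.subgroupOf U₀, V, hV, hle, rfl⟩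
  normal := by
    rintro W ⟨V, hV, -, rfl⟩
    haveI := 𝒰.normal V hV
    infer_instance
  finiteIndex := by
    rintro W ⟨V, hV, -, rfl⟩
    haveI := 𝒰.finiteIndex V hV
    infer_instance
  directed := by
    rintro W ⟨V, hV, hle, rfl⟩ W' ⟨V', hV', hle', rfl⟩
    obtain ⟨V'', hV'', h''⟩ := 𝒰.directed V hV V' hV'
    refine ⟨V''.subgroupOf U₀, ⟨V'', hV'', (h''.trans inf_le_left).trans hle, rfl⟩, ?_⟩
    intro x hx
    have hx' : (x : G) ∈ V'' := Subgroup.mem_subgroupOf.1 hx
    exact ⟨Subgroup.mem_subgroupOf.2 (h'' hx').1, Subgroup.mem_subgroupOf.2 (h'' hx').2⟩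

end Fermat.Agent.S55.ShapiroLevel32
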