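/-
S55 / 48-SHAPIRO-LEVEL (helper32): Shapiro's lemma for LEVEL cohomology, cochain level.

`π : G →* Γ`, `U₀ = π.ker`, `A : Rep k G` with coordinates `c : A ≃ₗ[k] (Γ → k)`,
`c (g • a) δ = c a (δ * π g)` (= the module coinduced from the trivial `U₀`-module `k`).
Explicit cochain maps

* `sh₁ f u = c (f u) 1`, `sh₂ f (u, v) = c (f (u, v)) 1`            (restriction + evaluation)
* `psi₁ x g = c⁻¹ (δ ↦ x (tw δ g))`, `psi₂ x (g, h) = c⁻¹ (δ ↦ x (tw δ g, tw (δ π g) h))`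
  where `tw δ g = s δ * g * (s (δ * π g))⁻¹ ∈ U₀` for a section `s` of `π` with `s 1 = 1`,

with `sh ∘ psi = id` and `f - psi (sh f) = d (explicit homotopy)` on cocycles.
-/
import Fermat.Agent.S55.ShapiroLevel32.Defs

set_option autoImplicit false

universe u

open CategoryTheory groupCohomology

namespace Fermat.Agent.S55.ShapiroLevel32

open Fermat.Agent.S55.Profin15

variable {k G Γ : Type u} [CommRing k] [Group G] [Group Γ]

/-- Coordinates presenting `A` as the `G`-module of functions on `Γ` with right translation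
through `π`. -/
structure CoindCoord (π : G →* Γ) (A : Rep k G) where
  /-- the coordinate isomorphism -/
  c : A ≃ₗ[k] (Γ → k)
  c_ρ : ∀ (g : G) (a : A) (δ : Γ), c (A.ρ g a) δ = c a (δ * π g)

/-- A set-theoretic section of `π` normalised at `1`. -/
structure Sect (π : G →* Γ) where
  /-- the section -/
  s : Γ → G
  π_s : ∀ δ, π (s δ) = δ
  s_one : s 1 = 1

lemma exists_sect {π : G →* Γ} (hπ : Function.Surjective π) : Nonempty (Sect π) := by
  classical
  refine ⟨⟨fun δ => if δ = 1 then 1 else Function.surjInv hπ δ, fun δ => ?_, by simp⟩⟩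
  by_cases h : δ = 1
  · simp [h]
  · simp [h, Function.surjInv_eq hπ δ]

namespace Sect

variable {π : G →* Γ} (σ : Sect π)

/-- The `U₀`-component `s δ * g * (s (δ * π g))⁻¹`. -/
def tw (δ : Γ) (g : G) : π.ker :=
  ⟨σ.s δ * g * (σ.s (δ * π g))⁻¹, by
    rw [MonoidHom.mem_ker, map_mul, map_mul, map_inv, σ.π_s, σ.π_s, mul_inv_cancel]⟩

@[simp] lemma coe_tw (δ : Γ) (g : G) : (σ.tw δ g : G) = σ.s δ * g * (σ.s (δ * π g))⁻¹ := rfl

lemma tw_mul (δ : Γ) (g h : G) : σ.tw δ (g * h) = σ.tw δ g * σ.tw (δ * π g) h := by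
  apply Subtype.ext
  simp only [coe_tw, Subgroup.coe_mul, map_mul, mul_assoc]
  group

lemma tw_mul_s (δ : Γ) (g : G) : (σ.tw δ g : G) * σ.s (δ * π g) = σ.s δ * g := by
  simp [coe_tw]

lemma π_tw (δ : Γ) (g : G) : π (σ.tw δ g : G) = 1 := (σ.tw δ g).2

lemma tw_one_coe (u : π.ker) : σ.tw 1 (u : G) = u := by
  apply Subtype.ext
  have hu : π (u : G) = 1 := u.2
  simp [coe_tw, hu, σ.s_one]

end Sect

namespace CoindCoord

variable {π : G →* Γ} {A : Rep k G} (co : CoindCoord π A)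

lemma ext_c {a b : A} (h : ∀ δ, co.c a δ = co.c b δ) : a = b :=
  co.c.injective (funext h)

@[simp] lemma c_symm_apply (φ : Γ → k) (δ : Γ) : co.c (co.c.symm φ) δ = φ δ := by
  rw [LinearEquiv.apply_symm_apply]

/-- `1`-cocycle condition in coordinates. -/
lemma mem_cocycles₁_iff (f : G → A) :
    f ∈ cocycles₁ A ↔ ∀ g h δ, co.c (f (g * h)) δ = co.c (f h) (δ * π g) + co.c (f g) δ := by
  rw [groupCohomology.mem_cocycles₁_iff]
  constructor
  · intro H g h δ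
    rw [H g h, map_add, Pi.add_apply, co.c_ρ]
  · intro H g h
    apply co.ext_c
    intro δ
    rw [H g h δ, map_add, Pi.add_apply, co.c_ρ]

/-- `2`-cocycle condition in coordinates. -/
lemma mem_cocycles₂_iff (f : G × G → A) :
    f ∈ cocycles₂ A ↔ ∀ g h j δ,
      co.c (f (g * h, j)) δ + co.c (f (g, h)) δ =
        co.c (f (h, j)) (δ * π g) + co.c (f (g, h * j)) δ := by
  rw [groupCohomology.mem_cocycles₂_iff]
  constructor
  · intro H g h j δ
    have := congrArg (fun a => co.c a δ) (H g h j)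
    simpa only [map_add, Pi.add_apply, co.c_ρ] using this
  · intro H g h j
    apply co.ext_c
    intro δ
    simpa only [map_add, Pi.add_apply, co.c_ρ] using H g h j δ

lemma c_d₀₁ (a : A) (g : G) (δ : Γ) :
    co.c ((d₀₁ A).hom a g) δ = co.c a (δ * π g) - co.c a δ := by
  rw [d₀₁_hom_apply, map_sub, Pi.sub_apply, co.c_ρ]

lemma c_d₁₂ (b : G → A) (g h : G) (δ : Γ) :
    co.c ((d₁₂ A).hom b (g, h)) δ =
      co.c (b h) (δ * π g) - co.c (b (g * h)) δ + co.c (b g) δ := by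
  rw [d₁₂_hom_apply, map_add, map_sub, Pi.add_apply, Pi.sub_apply, co.c_ρ]

end CoindCoord

/-! ### The trivial module `k` of a group `H` -/

section Triv

variable {H : Type u} [Group H]

/-- the trivial module `k` -/
abbrev triv (k H : Type u) [CommRing k] [Group H] : Rep k H := Rep.trivial k H k

lemma mem_cocycles₁_triv (x : H → k) :
    (x : H → triv k H) ∈ cocycles₁ (triv k H) ↔ ∀ u v, x (u * v) = x v + x u := by
  rw [groupCohomology.mem_cocycles₁_iff]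
  rfl

lemma mem_cocycles₂_triv (x : H × H → k) :
    (x : H × H → triv k H) ∈ cocycles₂ (triv k H) ↔
      ∀ u v w, x (u * v, w) + x (u, v) = x (v, w) + x (u, v * w) := by
  rw [groupCohomology.mem_cocycles₂_iff]
  rfl

lemma d₁₂_triv (y : H → k) (u v : H) :
    (d₁₂ (triv k H)).hom (y : H → triv k H) (u, v) = y v - y (u * v) + y u := by
  rw [d₁₂_hom_apply]
  rfl

lemma d₀₁_triv (a : k) (u : H) : (d₀₁ (triv k H)).hom (a : triv k H) u = 0 := by
  rw [d₀₁_hom_apply]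
  exact sub_self _

end Triv

namespace CoindCoord

variable {π : G →* Γ} {A : Rep k G} (co : CoindCoord π A) (σ : Sect π)

/-- Shapiro map on `1`-cochains: restrict to `U₀` and evaluate the coordinate at `1`. -/
def sh₁ : (G → A) →ₗ[k] (π.ker → triv k π.ker) where
  toFun f u := co.c (f (u : G)) 1
  map_add' f f' := by ext u; simp
  map_smul' r f := by ext u; simp

/-- Shapiro map on `2`-cochains. -/
def sh₂ : (G × G → A) →ₗ[k] (π.ker × π.ker → triv k π.ker) where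
  toFun f p := co.c (f ((p.1 : G), (p.2 : G))) 1
  map_add' f f' := by ext u; simp
  map_smul' r f := by ext u; simp

@[simp] lemma sh₁_apply (f : G → A) (u : π.ker) : co.sh₁ f u = co.c (f (u : G)) 1 := rfl
@[simp] lemma sh₂_apply (f : G × G → A) (u v : π.ker) :
    co.sh₂ f (u, v) = co.c (f ((u : G), (v : G))) 1 := rfl

/-- inverse Shapiro map on `1`-cochains -/
def psi₁ : (π.ker → triv k π.ker) →ₗ[k] (G → A) where
  toFun x g := co.c.symm (fun δ => x (σ.tw δ g))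
  map_add' x x' := by
    ext g
    apply co.ext_c
    intro δ
    simp
  map_smul' r x := by
    ext g
    apply co.ext_c
    intro δ
    simp

/-- inverse Shapiro map on `2`-cochains -/
def psi₂ : (π.ker × π.ker → triv k π.ker) →ₗ[k] (G × G → A) where
  toFun x p := co.c.symm (fun δ => x (σ.tw δ p.1, σ.tw (δ * π p.1) p.2))
  map_add' x x' := by
    ext g
    apply co.ext_c
    intro δ
    simp
  map_smul' r x := by
    ext g
    apply co.ext_c
    intro δ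
    simp

@[simp] lemma c_psi₁ (x : π.ker → triv k π.ker) (g : G) (δ : Γ) :
    co.c (co.psi₁ σ x g) δ = x (σ.tw δ g) := by
  simp [psi₁]

@[simp] lemma c_psi₂ (x : π.ker × π.ker → triv k π.ker) (g h : G) (δ : Γ) :
    co.c (co.psi₂ σ x (g, h)) δ = x (σ.tw δ g, σ.tw (δ * π g) h) := by
  simp [psi₂]

/-! ### Cochain identities -/

lemma sh₁_mem_cocycles₁ {f : G → A} (hf : f ∈ cocycles₁ A) :
    co.sh₁ f ∈ cocycles₁ (triv k π.ker) := by
  rw [mem_cocycles₁_triv]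
  intro u v
  have hu : π (u : G) = 1 := u.2
  have := (co.mem_cocycles₁_iff f).1 hf (u : G) (v : G) 1
  simpa [hu] using this

lemma sh₂_mem_cocycles₂ {f : G × G → A} (hf : f ∈ cocycles₂ A) :
    co.sh₂ f ∈ cocycles₂ (triv k π.ker) := by
  rw [mem_cocycles₂_triv]
  intro u v w
  have hu : π (u : G) = 1 := u.2
  have := (co.mem_cocycles₂_iff f).1 hf (u : G) (v : G) (w : G) 1
  simpa [hu] using this

lemma sh₂_d₁₂ (b : G → A) :
    co.sh₂ ((d₁₂ A).hom b) = (d₁₂ (triv k π.ker)).hom (co.sh₁ b) := by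
  ext ⟨u, v⟩
  have hu : π (u : G) = 1 := u.2
  rw [d₁₂_triv, sh₂_apply, co.c_d₁₂]
  simp [hu]

lemma sh₁_d₀₁ (a : A) : co.sh₁ ((d₀₁ A).hom a) = 0 := by
  ext u
  have hu : π (u : G) = 1 := u.2
  rw [sh₁_apply, co.c_d₀₁]
  simp [hu]

lemma psi₁_mem_cocycles₁ {x : π.ker → triv k π.ker} (hx : x ∈ cocycles₁ (triv k π.ker)) :
    co.psi₁ σ x ∈ cocycles₁ A := by
  rw [co.mem_cocycles₁_iff]
  intro g h δ
  rw [c_psi₁, c_psi₁, c_psi₁, σ.tw_mul]
  exact (mem_cocycles₁_triv x).1 hx _ _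

lemma psi₂_mem_cocycles₂ {x : π.ker × π.ker → triv k π.ker}
    (hx : x ∈ cocycles₂ (triv k π.ker)) : co.psi₂ σ x ∈ cocycles₂ A := by
  rw [co.mem_cocycles₂_iff]
  intro g h j δ
  rw [c_psi₂, c_psi₂, c_psi₂, c_psi₂, σ.tw_mul, map_mul, ← mul_assoc, σ.tw_mul]
  exact (mem_cocycles₂_triv x).1 hx _ _ _

lemma psi₂_d₁₂ (y : π.ker → triv k π.ker) :
    co.psi₂ σ ((d₁₂ (triv k π.ker)).hom y) = (d₁₂ A).hom (co.psi₁ σ y) := by
  ext ⟨g, h⟩
  apply co.ext_c
  intro δ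
  rw [c_psi₂, co.c_d₁₂, c_psi₁, c_psi₁, c_psi₁, d₁₂_triv, σ.tw_mul]

lemma sh₁_psi₁ (x : π.ker → triv k π.ker) : co.sh₁ (co.psi₁ σ x) = x := by
  ext u
  rw [sh₁_apply, c_psi₁, σ.tw_one_coe]

lemma sh₂_psi₂ (x : π.ker × π.ker → triv k π.ker) : co.sh₂ (co.psi₂ σ x) = x := by
  ext ⟨u, v⟩
  have hu : π (u : G) = 1 := u.2
  rw [sh₂_apply, c_psi₂, σ.tw_one_coe, hu, mul_one, σ.tw_one_coe]

/-- the homotopy in degree `1` -/
def hom₁ (f : G → A) : A := co.c.symm (fun δ => co.c (f (σ.s δ)) 1)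

/-- the homotopy in degree `2` -/
def hom₂ (f : G × G → A) : G → A := fun g =>
  co.c.symm (fun δ => co.c (f (σ.s δ, g)) 1 - co.c (f ((σ.tw δ g : G), σ.s (δ * π g))) 1)

@[simp] lemma c_hom₁ (f : G → A) (δ : Γ) : co.c (co.hom₁ σ f) δ = co.c (f (σ.s δ)) 1 := by
  simp [hom₁]

@[simp] lemma c_hom₂ (f : G × G → A) (g : G) (δ : Γ) :
    co.c (co.hom₂ σ f g) δ =
      co.c (f (σ.s δ, g)) 1 - co.c (f ((σ.tw δ g : G), σ.s (δ * π g))) 1 := by
  simp [hom₂]

/-- **Homotopy, degree 1**: `f - psi₁ (sh₁ f) = d (hom₁ f)` on cocycles. -/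
lemma sub_psi₁_sh₁ {f : G → A} (hf : f ∈ cocycles₁ A) :
    f - co.psi₁ σ (co.sh₁ f) = (d₀₁ A).hom (co.hom₁ σ f) := by
  ext g
  apply co.ext_c
  intro δ
  rw [Pi.sub_apply, map_sub, Pi.sub_apply, c_psi₁, sh₁_apply, co.c_d₀₁, c_hom₁, c_hom₁]
  have H := (co.mem_cocycles₁_iff f).1 hf
  have h1 := H (σ.s δ) g 1
  have h2 := H (σ.tw δ g : G) (σ.s (δ * π g)) 1
  rw [σ.tw_mul_s, σ.π_tw, mul_one] at h2
  rw [σ.π_s, one_mul] at h1
  linear_combination h2 - h1

/-- **Homotopy, degree 2**: `f - psi₂ (sh₂ f) = d (hom₂ f)` on cocycles. -/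
lemma sub_psi₂_sh₂ {f : G × G → A} (hf : f ∈ cocycles₂ A) :
    f - co.psi₂ σ (co.sh₂ f) = (d₁₂ A).hom (co.hom₂ σ f) := by
  ext ⟨g, h⟩
  apply co.ext_c
  intro δ
  rw [Pi.sub_apply, map_sub, Pi.sub_apply, c_psi₂, sh₂_apply, co.c_d₁₂, c_hom₂, c_hom₂, c_hom₂]
  have H := (co.mem_cocycles₂_iff f).1 hf
  have h1 := H (σ.s δ) g h 1
  have h2 := H (σ.tw δ g : G) (σ.s (δ * π g)) h 1
  have h3 := H (σ.tw δ g : G) (σ.tw (δ * π g) h : G) (σ.s (δ * π g * π h)) 1
  rw [σ.π_s, one_mul] at h1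
  rw [σ.tw_mul_s, σ.π_tw, mul_one] at h2
  rw [σ.π_tw, mul_one, σ.tw_mul_s] at h3
  rw [σ.tw_mul, map_mul, ← mul_assoc, Subgroup.coe_mul]
  linear_combination -h1 + h2 - h3

end CoindCoord

end Fermat.Agent.S55.ShapiroLevel32
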