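/-
S55 / 48-SHAPIRO-LEVEL (helper32): Shapiro's lemma for LEVEL cohomology.

`𝒰 : LevelStr G`, `π : G →* Γ` with `π.ker` containing a level, `A : Rep k G` with coordinates
`co : CoindCoord π A`.  Then

  `shapiroH1 : 𝒰.H1 A ≃ₗ[k] (restrictLevels 𝒰 π.ker _).H1 (triv k π.ker)`
  `shapiroH2 : 𝒰.H2 A ≃ₗ[k] (restrictLevels 𝒰 π.ker _).H2 (triv k π.ker)`

with the explicit formula `[f] ↦ [fun (u, v) => co.c (f (u, v)) 1]` on representatives.
-/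
import Fermat.Agent.S55.ShapiroLevel32.Core

set_option autoImplicit false

universe u

open CategoryTheory groupCohomology

namespace Fermat.Agent.S55.ShapiroLevel32

open Fermat.Agent.S55.Profin15

variable {k G Γ : Type u} [CommRing k] [Group G] [Group Γ]

namespace Sect

variable {π : G →* Γ} (σ : Sect π)

lemma coe_tw_of_mem_ker (δ : Γ) {w : G} (hw : π w = 1) :
    (σ.tw δ w : G) = σ.s δ * w * (σ.s δ)⁻¹ := by
  rw [coe_tw, hw, mul_one]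

end Sect

section

variable (𝒰 : LevelStr G) {π : G →* Γ} (hker : ∃ V ∈ 𝒰.levels, V ≤ π.ker)
  {A : Rep k G} (co : CoindCoord π A) (σ : Sect π)

/-- the level structure induced on `π.ker` -/
abbrev kerLevels : LevelStr ↥π.ker := restrictLevels 𝒰 π.ker hker

lemma mem_kerLevels {W : Subgroup G} (hW : W ∈ 𝒰.levels) (hle : W ≤ π.ker) :
    W.subgroupOf π.ker ∈ (kerLevels 𝒰 hker).levels := ⟨W, hW, hle, rfl⟩

include hker

/-- a level-constant function is constant modulo a level contained in `π.ker` -/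
lemma IsConst₁.exists_le_ker {X : Type*} {f : G → X} (hf : 𝒰.IsConst₁ f) :
    ∃ W ∈ 𝒰.levels, W ≤ π.ker ∧ ∀ g s, s ∈ W → f (g * s) = f g := by
  obtain ⟨V, hV, hVle⟩ := hker
  obtain ⟨W, hW, hle, h⟩ := hf.exists_le hV
  exact ⟨W, hW, hle.trans hVle, h⟩

lemma IsConst₂.exists_le_ker {X : Type*} {f : G × G → X} (hf : 𝒰.IsConst₂ f) :
    ∃ W ∈ 𝒰.levels, W ≤ π.ker ∧
      ∀ g g' s s', s ∈ W → s' ∈ W → f (g * s, g' * s') = f (g, g') := by
  obtain ⟨V, hV, hVle⟩ := hker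
  obtain ⟨W, hW, hle, h⟩ := hf.exists_le hV
  exact ⟨W, hW, hle.trans hVle, h⟩

lemma isConst₁_sh₁ {f : G → A} (hf : 𝒰.IsConst₁ f) :
    (kerLevels 𝒰 hker).IsConst₁ (co.sh₁ f) := by
  obtain ⟨W, hW, hle, h⟩ := IsConst₁.exists_le_ker 𝒰 hker hf
  refine ⟨_, mem_kerLevels 𝒰 hker hW hle, fun u s hs => ?_⟩
  have hs' : (s : G) ∈ W := Subgroup.mem_subgroupOf.1 hs
  simp only [CoindCoord.sh₁_apply, Subgroup.coe_mul, h (u : G) (s : G) hs']

lemma isConst₂_sh₂ {f : G × G → A} (hf : 𝒰.IsConst₂ f) :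
    (kerLevels 𝒰 hker).IsConst₂ (co.sh₂ f) := by
  obtain ⟨W, hW, hle, h⟩ := IsConst₂.exists_le_ker 𝒰 hker hf
  refine ⟨_, mem_kerLevels 𝒰 hker hW hle, fun u u' s s' hs hs' => ?_⟩
  have h1 : (s : G) ∈ W := Subgroup.mem_subgroupOf.1 hs
  have h2 : (s' : G) ∈ W := Subgroup.mem_subgroupOf.1 hs'
  simp only [CoindCoord.sh₂_apply, Subgroup.coe_mul, h (u : G) (u' : G) (s : G) (s' : G) h1 h2]

omit hker in
/-- the key translation: `tw δ (g * w) = tw δ g * (conjugate of w)` for `w` in a level inside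
`π.ker`. -/
lemma tw_mul_level {W : Subgroup G} [W.Normal] (hle : W ≤ π.ker) (δ : Γ) (g : G) {w : G}
    (hw : w ∈ W) : ∃ w' : π.ker, w' ∈ W.subgroupOf π.ker ∧ σ.tw δ (g * w) = σ.tw δ g * w' := by
  have hπw : π w = 1 := hle hw
  refine ⟨σ.tw (δ * π g) w, ?_, σ.tw_mul δ g w⟩
  rw [Subgroup.mem_subgroupOf, σ.coe_tw_of_mem_ker _ hπw]
  exact Subgroup.Normal.conj_mem ‹_› w hw _

lemma isConst₁_psi₁ {x : π.ker → triv k π.ker} (hx : (kerLevels 𝒰 hker).IsConst₁ x) :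
    𝒰.IsConst₁ (co.psi₁ σ x) := by
  obtain ⟨W', ⟨W, hW, hle, rfl⟩, h⟩ := hx
  haveI := 𝒰.normal W hW
  refine ⟨W, hW, fun g w hw => ?_⟩
  apply co.ext_c
  intro δ
  obtain ⟨w', hw', e⟩ := tw_mul_level σ hle δ g hw
  rw [CoindCoord.c_psi₁, CoindCoord.c_psi₁, e, h _ _ hw']

lemma isConst₂_psi₂ {x : π.ker × π.ker → triv k π.ker}
    (hx : (kerLevels 𝒰 hker).IsConst₂ x) : 𝒰.IsConst₂ (co.psi₂ σ x) := by
  obtain ⟨W', ⟨W, hW, hle, rfl⟩, h⟩ := hx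
  haveI := 𝒰.normal W hW
  refine ⟨W, hW, fun g g' w w' hw hw' => ?_⟩
  apply co.ext_c
  intro δ
  have hπw : π w = 1 := hle hw
  obtain ⟨v, hv, e⟩ := tw_mul_level σ hle δ g hw
  obtain ⟨v', hv', e'⟩ := tw_mul_level σ hle (δ * π g) g' hw'
  rw [CoindCoord.c_psi₂, CoindCoord.c_psi₂, map_mul, hπw, mul_one, e, e', h _ _ _ _ hv hv']

lemma isConst₁_hom₂ {f : G × G → A} (hf : 𝒰.IsConst₂ f) : 𝒰.IsConst₁ (co.hom₂ σ f) := by
  obtain ⟨W, hW, hle, h⟩ := IsConst₂.exists_le_ker 𝒰 hker hf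
  haveI := 𝒰.normal W hW
  refine ⟨W, hW, fun g w hw => ?_⟩
  apply co.ext_c
  intro δ
  have hπw : π w = 1 := hle hw
  obtain ⟨v, hv, e⟩ := tw_mul_level σ hle δ g hw
  have hv' : (v : G) ∈ W := Subgroup.mem_subgroupOf.1 hv
  rw [CoindCoord.c_hom₂, CoindCoord.c_hom₂, map_mul, hπw, mul_one, e, Subgroup.coe_mul]
  have e1 := h (σ.s δ) g 1 w (one_mem _) hw
  have e2 := h (σ.tw δ g : G) (σ.s (δ * π g)) (v : G) 1 hv' (one_mem _)
  rw [mul_one] at e1 e2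
  rw [e1, e2]

end

end Fermat.Agent.S55.ShapiroLevel32
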