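/-
S55 / 48-SHAPIRO-LEVEL (helper32): the Shapiro isomorphisms on level cohomology.
-/
import Fermat.Agent.S55.ShapiroLevel32.Level

set_option autoImplicit false

universe u

open CategoryTheory groupCohomology

namespace Fermat.Agent.S55.ShapiroLevel32

open Fermat.Agent.S55.Profin15

variable {k G Γ : Type u} [CommRing k] [Group G] [Group Γ]

variable (𝒰 : LevelStr G) {π : G →* Γ} (hker : ∃ V ∈ 𝒰.levels, V ≤ π.ker)
  {A : Rep k G} (co : CoindCoord π A) (σ : Sect π)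

/-! ### Degree 1 -/

/-- `sh₁` on level cocycles -/
def shZ₁ : ↥(𝒰.Z₁ A) →ₗ[k] ↥((kerLevels 𝒰 hker).Z₁ (triv k π.ker)) :=
  (co.sh₁.comp (𝒰.Z₁ A).subtype).codRestrict _
    (fun f => ⟨co.sh₁_mem_cocycles₁ f.2.1, isConst₁_sh₁ 𝒰 hker co f.2.2⟩)

/-- `psi₁` on level cocycles -/
def psiZ₁ : ↥((kerLevels 𝒰 hker).Z₁ (triv k π.ker)) →ₗ[k] ↥(𝒰.Z₁ A) :=
  ((co.psi₁ σ).comp ((kerLevels 𝒰 hker).Z₁ (triv k π.ker)).subtype).codRestrict _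
    (fun x => ⟨co.psi₁_mem_cocycles₁ σ x.2.1, isConst₁_psi₁ 𝒰 hker co σ x.2.2⟩)

@[simp] lemma coe_shZ₁ (f : ↥(𝒰.Z₁ A)) :
    ((shZ₁ 𝒰 hker co f : ↥((kerLevels 𝒰 hker).Z₁ (triv k π.ker))) : π.ker → triv k π.ker) =
      co.sh₁ (f : G → A) := rfl

@[simp] lemma coe_psiZ₁ (x : ↥((kerLevels 𝒰 hker).Z₁ (triv k π.ker))) :
    ((psiZ₁ 𝒰 hker co σ x : ↥(𝒰.Z₁ A)) : G → A) = co.psi₁ σ (x : π.ker → triv k π.ker) := rfl

/-- Shapiro map on `H¹` -/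
def shH1 : 𝒰.H1 A →ₗ[k] (kerLevels 𝒰 hker).H1 (triv k π.ker) :=
  Submodule.mapQ _ _ (shZ₁ 𝒰 hker co) (by
    rintro f ⟨a, ha⟩
    rw [Submodule.mem_comap, Submodule.mem_comap]
    change co.sh₁ (f : G → A) ∈ coboundaries₁ (triv k π.ker)
    have ha' : (d₀₁ A).hom a = (f : G → A) := ha
    rw [← ha', co.sh₁_d₀₁]
    exact Submodule.zero_mem _)

/-- inverse Shapiro map on `H¹` -/
def psiH1 : (kerLevels 𝒰 hker).H1 (triv k π.ker) →ₗ[k] 𝒰.H1 A :=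
  Submodule.mapQ _ _ (psiZ₁ 𝒰 hker co σ) (by
    rintro x ⟨a, ha⟩
    rw [Submodule.mem_comap, Submodule.mem_comap]
    change co.psi₁ σ (x : π.ker → triv k π.ker) ∈ coboundaries₁ A
    have ha' : (d₀₁ (triv k π.ker)).hom a = (x : π.ker → triv k π.ker) := ha
    have h0 : (x : π.ker → triv k π.ker) = 0 := by
      rw [← ha']
      funext u
      exact d₀₁_triv a u
    rw [h0, map_zero]
    exact Submodule.zero_mem _)

/-- **Shapiro's lemma for level cohomology, degree 1.** -/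
def shapiroH1 : 𝒰.H1 A ≃ₗ[k] (kerLevels 𝒰 hker).H1 (triv k π.ker) :=
  LinearEquiv.ofLinear (shH1 𝒰 hker co) (psiH1 𝒰 hker co σ)
    (by
      apply LinearMap.ext
      intro y
      obtain ⟨x, rfl⟩ := Submodule.mkQ_surjective _ y
      change Submodule.Quotient.mk (shZ₁ 𝒰 hker co (psiZ₁ 𝒰 hker co σ x)) = Submodule.Quotient.mk x
      congr 1
      apply Subtype.ext
      rw [coe_shZ₁, coe_psiZ₁, co.sh₁_psi₁])
    (by
      apply LinearMap.ext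
      intro y
      obtain ⟨f, rfl⟩ := Submodule.mkQ_surjective _ y
      change Submodule.Quotient.mk (psiZ₁ 𝒰 hker co σ (shZ₁ 𝒰 hker co f)) = Submodule.Quotient.mk f
      rw [Submodule.Quotient.eq, ← Submodule.neg_mem_iff, neg_sub, Submodule.mem_comap]
      change (f : G → A) - co.psi₁ σ (co.sh₁ (f : G → A)) ∈ coboundaries₁ A
      rw [co.sub_psi₁_sh₁ σ f.2.1]
      exact ⟨_, rfl⟩)

lemma shapiroH1_mk (f : ↥(𝒰.Z₁ A)) :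
    shapiroH1 𝒰 hker co σ (𝒰.H1π A f) =
      (kerLevels 𝒰 hker).H1π (triv k π.ker) (shZ₁ 𝒰 hker co f) := rfl

/-! ### Degree 2 -/

/-- `sh₂` on level cocycles -/
def shZ₂ : ↥(𝒰.Z₂ A) →ₗ[k] ↥((kerLevels 𝒰 hker).Z₂ (triv k π.ker)) :=
  (co.sh₂.comp (𝒰.Z₂ A).subtype).codRestrict _
    (fun f => ⟨co.sh₂_mem_cocycles₂ f.2.1, isConst₂_sh₂ 𝒰 hker co f.2.2⟩)

/-- `psi₂` on level cocycles -/
def psiZ₂ : ↥((kerLevels 𝒰 hker).Z₂ (triv k π.ker)) →ₗ[k] ↥(𝒰.Z₂ A) :=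
  ((co.psi₂ σ).comp ((kerLevels 𝒰 hker).Z₂ (triv k π.ker)).subtype).codRestrict _
    (fun x => ⟨co.psi₂_mem_cocycles₂ σ x.2.1, isConst₂_psi₂ 𝒰 hker co σ x.2.2⟩)

@[simp] lemma coe_shZ₂ (f : ↥(𝒰.Z₂ A)) :
    ((shZ₂ 𝒰 hker co f : ↥((kerLevels 𝒰 hker).Z₂ (triv k π.ker))) :
      π.ker × π.ker → triv k π.ker) = co.sh₂ (f : G × G → A) := rfl

@[simp] lemma coe_psiZ₂ (x : ↥((kerLevels 𝒰 hker).Z₂ (triv k π.ker))) :
    ((psiZ₂ 𝒰 hker co σ x : ↥(𝒰.Z₂ A)) : G × G → A) =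
      co.psi₂ σ (x : π.ker × π.ker → triv k π.ker) := rfl

/-- Shapiro map on `H²` -/
def shH2 : 𝒰.H2 A →ₗ[k] (kerLevels 𝒰 hker).H2 (triv k π.ker) :=
  Submodule.mapQ _ _ (shZ₂ 𝒰 hker co) (by
    rintro f hf
    rw [Submodule.mem_comap] at hf ⊢
    obtain ⟨b, hb, hbf⟩ := (𝒰.mem_B₂_iff A _).1 hf
    refine ((kerLevels 𝒰 hker).mem_B₂_iff _ _).2 ⟨co.sh₁ b, isConst₁_sh₁ 𝒰 hker co hb, ?_⟩
    rw [← co.sh₂_d₁₂, hbf]
    rfl)

/-- inverse Shapiro map on `H²` -/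
def psiH2 : (kerLevels 𝒰 hker).H2 (triv k π.ker) →ₗ[k] 𝒰.H2 A :=
  Submodule.mapQ _ _ (psiZ₂ 𝒰 hker co σ) (by
    rintro x hx
    rw [Submodule.mem_comap] at hx ⊢
    obtain ⟨y, hy, hyx⟩ := ((kerLevels 𝒰 hker).mem_B₂_iff _ _).1 hx
    refine (𝒰.mem_B₂_iff A _).2 ⟨co.psi₁ σ y, isConst₁_psi₁ 𝒰 hker co σ hy, ?_⟩
    rw [← co.psi₂_d₁₂, hyx]
    rfl)

/-- **Shapiro's lemma for level cohomology, degree 2.** -/
def shapiroH2 : 𝒰.H2 A ≃ₗ[k] (kerLevels 𝒰 hker).H2 (triv k π.ker) :=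
  LinearEquiv.ofLinear (shH2 𝒰 hker co) (psiH2 𝒰 hker co σ)
    (by
      apply LinearMap.ext
      intro y
      obtain ⟨x, rfl⟩ := Submodule.mkQ_surjective _ y
      change Submodule.Quotient.mk (shZ₂ 𝒰 hker co (psiZ₂ 𝒰 hker co σ x)) = Submodule.Quotient.mk x
      congr 1
      apply Subtype.ext
      rw [coe_shZ₂, coe_psiZ₂, co.sh₂_psi₂])
    (by
      apply LinearMap.ext
      intro y
      obtain ⟨f, rfl⟩ := Submodule.mkQ_surjective _ y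
      change Submodule.Quotient.mk (psiZ₂ 𝒰 hker co σ (shZ₂ 𝒰 hker co f)) = Submodule.Quotient.mk f
      rw [Submodule.Quotient.eq, ← Submodule.neg_mem_iff, neg_sub, Submodule.mem_comap]
      change (f : G × G → A) - co.psi₂ σ (co.sh₂ (f : G × G → A)) ∈ 𝒰.B₂ A
      rw [co.sub_psi₂_sh₂ σ f.2.1]
      exact (𝒰.mem_B₂_iff A _).2 ⟨_, isConst₁_hom₂ 𝒰 hker co σ f.2.2, rfl⟩)

lemma shapiroH2_mk (f : ↥(𝒰.Z₂ A)) :
    shapiroH2 𝒰 hker co σ (𝒰.H2π A f) =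
      (kerLevels 𝒰 hker).H2π (triv k π.ker) (shZ₂ 𝒰 hker co f) := rfl

/-- The forward map does not depend on the section. -/
lemma shapiroH2_eq_shH2 (x : 𝒰.H2 A) : shapiroH2 𝒰 hker co σ x = shH2 𝒰 hker co x := rfl

lemma shapiroH1_eq_shH1 (x : 𝒰.H1 A) : shapiroH1 𝒰 hker co σ x = shH1 𝒰 hker co x := rfl

end Fermat.Agent.S55.ShapiroLevel32
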