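/-
S55 / 48-SHAPIRO-LEVEL (helper32): conjugation acts trivially on cohomology, explicit homotopies
in degrees 1 and 2 (any representation, no level structure needed; level-constancy of the
homotopy is recorded separately).

For a `2`-cocycle `f` and `t : G`:

  `A.ρ t (f (g, h)) - f (t g t⁻¹, t h t⁻¹) = (d₁₂ A) (conjHom₂ A t f) (t g t⁻¹, t h t⁻¹)`,
  `conjHom₂ A t f x = f (t, t⁻¹ x t) - f (x, t)`.
-/
import Fermat.Agent.S55.Profin15.Cohomology

set_option autoImplicit false

universe u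

open CategoryTheory groupCohomology

namespace Fermat.Agent.S55.ShapiroLevel32

open Fermat.Agent.S55.Profin15

variable {k G : Type u} [CommRing k] [Group G] (A : Rep k G)

/-- the conjugation homotopy in degree `2` -/
def conjHom₂ (t : G) (f : G × G → A) : G → A := fun x => f (t, t⁻¹ * x * t) - f (x, t)

lemma conjHom₂_apply (t : G) (f : G × G → A) (x : G) :
    conjHom₂ A t f x = f (t, t⁻¹ * x * t) - f (x, t) := rfl

/-- **Conjugation is homotopic to the identity, degree 2.** -/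
theorem conj_cocycle₂ {f : G × G → A} (hf : f ∈ cocycles₂ A) (t g h : G) :
    A.ρ t (f (g, h)) - f (t * g * t⁻¹, t * h * t⁻¹) =
      (d₁₂ A).hom (conjHom₂ A t f) (t * g * t⁻¹, t * h * t⁻¹) := by
  have H := (mem_cocycles₂_iff f).1 hf
  have h1 := H t g h
  have h2 := H (t * g * t⁻¹) t h
  have h3 := H (t * g * t⁻¹) (t * h * t⁻¹) t
  have e1 : t * g * t⁻¹ * t = t * g := by group
  have e2 : t * h * t⁻¹ * t = t * h := by group
  have e3 : t⁻¹ * (t * h * t⁻¹) * t = h := by group
  have e4 : t⁻¹ * (t * g * t⁻¹) * t = g := by group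
  have e5 : t⁻¹ * (t * g * t⁻¹ * (t * h * t⁻¹)) * t = g * h := by group
  rw [e1] at h2
  rw [e2] at h3
  rw [d₁₂_hom_apply, conjHom₂_apply, conjHom₂_apply, conjHom₂_apply, e3, e4, e5, map_sub]
  linear_combination (norm := abel) -h1 + h2 - h3

/-- **Conjugation is homotopic to the identity, degree 1.** -/
theorem conj_cocycle₁ {f : G → A} (hf : f ∈ cocycles₁ A) (t g : G) :
    A.ρ t (f g) - f (t * g * t⁻¹) = (d₀₁ A).hom (f t) (t * g * t⁻¹) := by
  have H := (mem_cocycles₁_iff f).1 hf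
  have h1 := H t g
  have h2 := H (t * g * t⁻¹) t
  have e1 : t * g * t⁻¹ * t = t * g := by group
  rw [e1] at h2
  rw [d₀₁_hom_apply]
  linear_combination (norm := abel) -h1 + h2

/-- the conjugation homotopy of a level cochain is a level cochain -/
lemma isConst₁_conjHom₂ (𝒰 : LevelStr G) (t : G) {f : G × G → A} (hf : 𝒰.IsConst₂ f) :
    𝒰.IsConst₁ (conjHom₂ A t f) := by
  obtain ⟨U, hU, h⟩ := hf
  haveI := 𝒰.normal U hU
  refine ⟨U, hU, fun x s hs => ?_⟩
  have e : t⁻¹ * (x * s) * t = t⁻¹ * x * t * (t⁻¹ * s * t) := by group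
  have h1 := h t (t⁻¹ * x * t) 1 (t⁻¹ * s * t) (one_mem _)
    (Subgroup.Normal.conj_mem' ‹_› s hs t)
  have h2 := h x t s 1 hs (one_mem _)
  rw [mul_one] at h1 h2
  rw [conjHom₂_apply, conjHom₂_apply, e, h1, h2]

end Fermat.Agent.S55.ShapiroLevel32
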