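/-
S55 / 48-SHAPIRO-LEVEL (helper32): Shapiro's lemma for a NON-surjective `π : G →* Γ`
(local Galois groups mapping to a global finite quotient), cochain level.

`A : Rep k G` with coordinates `co : CoindCoord π A`.  The `G`-set `Γ` (right translation through
`π`) is a disjoint union of orbits `ρ * π(G)`; a system of representatives with a section is an
`OrbSect π`.  For every `ρ : Γ` the shifted coordinates `co.shift ρ` present `A` again as a
coinduced module, so that `(co.shift ρ).sh₂ f (u, v) = co.c (f (u, v)) ρ` is the Shapiro map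
"restrict to `π.ker` and take the coordinate at `ρ`".  The family of these maps over the
representatives is inverse (up to an explicit homotopy) to

  `psiO₂ F (g, h) = c⁻¹ (δ ↦ F (rep δ) (tw δ g, tw (δ π g) h))`,
  `tw δ g = s δ * g * (s (δ * π g))⁻¹ ∈ π.ker`.
-/
import Fermat.Agent.S55.ShapiroLevel32.Equiv

set_option autoImplicit false

universe u

open CategoryTheory groupCohomology

namespace Fermat.Agent.S55.ShapiroLevel32

open Fermat.Agent.S55.Profin15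

variable {k G Γ : Type u} [CommRing k] [Group G] [Group Γ]

namespace CoindCoord

variable {π : G →* Γ} {A : Rep k G} (co : CoindCoord π A)

/-- shifted coordinates: `(co.shift ρ).c a δ = co.c a (ρ * δ)` -/
def shift (ρ : Γ) : CoindCoord π A where
  c := co.c.trans (LinearEquiv.funCongrLeft k k (Equiv.mulLeft ρ))
  c_ρ g a δ := by
    simp only [LinearEquiv.trans_apply, LinearEquiv.funCongrLeft_apply, LinearMap.funLeft_apply,
      Equiv.coe_mulLeft, co.c_ρ, mul_assoc]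

@[simp] lemma shift_c (ρ : Γ) (a : A) (δ : Γ) : (co.shift ρ).c a δ = co.c a (ρ * δ) := rfl

lemma shift_sh₂_apply (ρ : Γ) (f : G × G → A) (u v : π.ker) :
    (co.shift ρ).sh₂ f (u, v) = co.c (f ((u : G), (v : G))) ρ := by
  rw [sh₂_apply, shift_c, mul_one]

lemma shift_sh₁_apply (ρ : Γ) (f : G → A) (u : π.ker) :
    (co.shift ρ).sh₁ f u = co.c (f (u : G)) ρ := by
  rw [sh₁_apply, shift_c, mul_one]

end CoindCoord

/-- A system of representatives `rep` for the orbits `δ * π(G)` of `G` on `Γ`, together with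
elements `s δ : G` moving the representative to `δ`. -/
structure OrbSect (π : G →* Γ) where
  /-- the representative of the orbit of `δ` -/
  rep : Γ → Γ
  /-- an element with `rep δ * π (s δ) = δ` -/
  s : Γ → G
  rep_mul : ∀ δ g, rep (δ * π g) = rep δ
  rep_s : ∀ δ, rep δ * π (s δ) = δ
  s_rep : ∀ δ, s (rep δ) = 1

namespace OrbSect

variable {π : G →* Γ} (τ : OrbSect π)

lemma π_s (δ : Γ) : π (τ.s δ) = (τ.rep δ)⁻¹ * δ := by
  rw [eq_inv_mul_iff_mul_eq, τ.rep_s]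

lemma rep_rep (δ : Γ) : τ.rep (τ.rep δ) = τ.rep δ := by
  have h : τ.rep δ = δ * π (τ.s δ)⁻¹ := by
    rw [map_inv, eq_mul_inv_iff_mul_eq, τ.rep_s]
  conv_lhs => rw [h, τ.rep_mul]

/-- the representatives -/
abbrev R : Type u := {ρ : Γ // τ.rep ρ = ρ}

/-- the representative of `δ` as an element of `R` -/
def repR (δ : Γ) : τ.R := ⟨τ.rep δ, τ.rep_rep δ⟩

@[simp] lemma coe_repR (δ : Γ) : ((τ.repR δ : τ.R) : Γ) = τ.rep δ := rfl

lemma repR_coe (ρ : τ.R) : τ.repR (ρ : Γ) = ρ := Subtype.ext ρ.2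

lemma s_coe (ρ : τ.R) : τ.s (ρ : Γ) = 1 := by
  have := τ.s_rep (ρ : Γ)
  rwa [ρ.2] at this

/-- The `π.ker`-component `s δ * g * (s (δ * π g))⁻¹`. -/
def tw (δ : Γ) (g : G) : π.ker :=
  ⟨τ.s δ * g * (τ.s (δ * π g))⁻¹, by
    rw [MonoidHom.mem_ker, map_mul, map_mul, map_inv, τ.π_s, τ.π_s, τ.rep_mul]
    group⟩

@[simp] lemma coe_tw (δ : Γ) (g : G) : (τ.tw δ g : G) = τ.s δ * g * (τ.s (δ * π g))⁻¹ := rfl

lemma tw_mul (δ : Γ) (g h : G) : τ.tw δ (g * h) = τ.tw δ g * τ.tw (δ * π g) h := by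
  apply Subtype.ext
  simp only [coe_tw, Subgroup.coe_mul, map_mul, mul_assoc]
  group

lemma tw_mul_s (δ : Γ) (g : G) : (τ.tw δ g : G) * τ.s (δ * π g) = τ.s δ * g := by
  simp [coe_tw]

lemma π_tw (δ : Γ) (g : G) : π (τ.tw δ g : G) = 1 := (τ.tw δ g).2

lemma tw_coe (ρ : τ.R) (u : π.ker) : τ.tw (ρ : Γ) (u : G) = u := by
  apply Subtype.ext
  have hu : π (u : G) = 1 := u.2
  simp [coe_tw, hu, τ.s_coe]

lemma coe_tw_of_mem_ker (δ : Γ) {w : G} (hw : π w = 1) :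
    (τ.tw δ w : G) = τ.s δ * w * (τ.s δ)⁻¹ := by
  rw [coe_tw, hw, mul_one]

end OrbSect

/-- Orbit sections always exist. -/
lemma exists_orbSect (π : G →* Γ) : Nonempty (OrbSect π) := by
  classical
  let q : Γ → Γ ⧸ π.range := QuotientGroup.mk
  let rep : Γ → Γ := fun δ => Quotient.out (q δ)
  have hq : ∀ δ, q (rep δ) = q δ := fun δ => QuotientGroup.out_eq' (q δ)
  have hmem : ∀ δ, (rep δ)⁻¹ * δ ∈ π.range := fun δ => QuotientGroup.eq.1 (hq δ)
  have hrep_mul : ∀ δ g, rep (δ * π g) = rep δ := by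
    intro δ g
    have : q (δ * π g) = q δ := by
      apply QuotientGroup.eq.2
      rw [mul_inv_rev, inv_mul_cancel_right]
      exact π.range.inv_mem ⟨g, rfl⟩
    show Quotient.out (q (δ * π g)) = Quotient.out (q δ)
    rw [this]
  have hrr : ∀ δ, rep (rep δ) = rep δ := by
    intro δ
    show Quotient.out (q (rep δ)) = Quotient.out (q δ)
    rw [hq]
  refine ⟨⟨rep, fun δ => if rep δ = δ then 1 else (hmem δ).choose, hrep_mul, fun δ => ?_,
    fun δ => ?_⟩⟩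
  · by_cases h : rep δ = δ
    · simp [h]
    · simp only [h, if_false]
      rw [(hmem δ).choose_spec, mul_inv_cancel_left]
  · simp [hrr]

namespace CoindCoord

variable {π : G →* Γ} {A : Rep k G} (co : CoindCoord π A) (τ : OrbSect π)

/-- inverse orbit-Shapiro map on `1`-cochains (a family of cochains of `π.ker` indexed by `Γ`,
only the values at the representatives matter) -/
def psiO₁ : (Γ → (π.ker → triv k π.ker)) →ₗ[k] (G → A) where
  toFun F g := co.c.symm (fun δ => F (τ.rep δ) (τ.tw δ g))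
  map_add' x x' := by
    ext g
    apply co.ext_c
    intro δ
    simp
  map_smul' r x := by
    ext g
    apply co.ext_c
    intro δ
    simp

/-- inverse orbit-Shapiro map on `2`-cochains -/
def psiO₂ : (Γ → (π.ker × π.ker → triv k π.ker)) →ₗ[k] (G × G → A) where
  toFun F p := co.c.symm (fun δ => F (τ.rep δ) (τ.tw δ p.1, τ.tw (δ * π p.1) p.2))
  map_add' x x' := by
    ext g
    apply co.ext_c
    intro δ
    simp
  map_smul' r x := by
    ext g
    apply co.ext_c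
    intro δ
    simp

@[simp] lemma c_psiO₁ (F : Γ → (π.ker → triv k π.ker)) (g : G) (δ : Γ) :
    co.c (co.psiO₁ τ F g) δ = F (τ.rep δ) (τ.tw δ g) := by
  simp [psiO₁]

@[simp] lemma c_psiO₂ (F : Γ → (π.ker × π.ker → triv k π.ker)) (g h : G) (δ : Γ) :
    co.c (co.psiO₂ τ F (g, h)) δ = F (τ.rep δ) (τ.tw δ g, τ.tw (δ * π g) h) := by
  simp [psiO₂]

lemma psiO₁_mem_cocycles₁ {F : Γ → (π.ker → triv k π.ker)}
    (hF : ∀ δ, F δ ∈ cocycles₁ (triv k π.ker)) : co.psiO₁ τ F ∈ cocycles₁ A := by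
  rw [co.mem_cocycles₁_iff]
  intro g h δ
  rw [c_psiO₁, c_psiO₁, c_psiO₁, τ.tw_mul, τ.rep_mul]
  exact (mem_cocycles₁_triv (F (τ.rep δ))).1 (hF _) _ _

lemma psiO₂_mem_cocycles₂ {F : Γ → (π.ker × π.ker → triv k π.ker)}
    (hF : ∀ δ, F δ ∈ cocycles₂ (triv k π.ker)) : co.psiO₂ τ F ∈ cocycles₂ A := by
  rw [co.mem_cocycles₂_iff]
  intro g h j δ
  rw [c_psiO₂, c_psiO₂, c_psiO₂, c_psiO₂, τ.tw_mul, map_mul, ← mul_assoc, τ.tw_mul, τ.rep_mul]
  exact (mem_cocycles₂_triv (F (τ.rep δ))).1 (hF _) _ _ _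

lemma psiO₂_d₁₂ (y : Γ → (π.ker → triv k π.ker)) :
    co.psiO₂ τ (fun δ => (d₁₂ (triv k π.ker)).hom (y δ)) = (d₁₂ A).hom (co.psiO₁ τ y) := by
  ext ⟨g, h⟩
  apply co.ext_c
  intro δ
  rw [c_psiO₂, co.c_d₁₂, c_psiO₁, c_psiO₁, c_psiO₁, d₁₂_triv, τ.tw_mul, τ.rep_mul]

/-- coordinate at a representative of the inverse map, degree 1 -/
lemma shift_sh₁_psiO₁ (F : Γ → (π.ker → triv k π.ker)) (ρ : τ.R) :
    (co.shift (ρ : Γ)).sh₁ (co.psiO₁ τ F) = F (ρ : Γ) := by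
  ext u
  rw [shift_sh₁_apply, c_psiO₁, τ.tw_coe, ρ.2]

/-- coordinate at a representative of the inverse map, degree 2 -/
lemma shift_sh₂_psiO₂ (F : Γ → (π.ker × π.ker → triv k π.ker)) (ρ : τ.R) :
    (co.shift (ρ : Γ)).sh₂ (co.psiO₂ τ F) = F (ρ : Γ) := by
  ext ⟨u, v⟩
  have hu : π (u : G) = 1 := u.2
  rw [shift_sh₂_apply, c_psiO₂, τ.tw_coe, hu, mul_one, τ.tw_coe, ρ.2]

/-- the homotopy in degree `1` -/
def homO₁ (f : G → A) : A := co.c.symm (fun δ => co.c (f (τ.s δ)) (τ.rep δ))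

/-- the homotopy in degree `2` -/
def homO₂ (f : G × G → A) : G → A := fun g =>
  co.c.symm (fun δ => co.c (f (τ.s δ, g)) (τ.rep δ)
    - co.c (f ((τ.tw δ g : G), τ.s (δ * π g))) (τ.rep δ))

@[simp] lemma c_homO₁ (f : G → A) (δ : Γ) :
    co.c (co.homO₁ τ f) δ = co.c (f (τ.s δ)) (τ.rep δ) := by
  simp [homO₁]

@[simp] lemma c_homO₂ (f : G × G → A) (g : G) (δ : Γ) :
    co.c (co.homO₂ τ f g) δ =
      co.c (f (τ.s δ, g)) (τ.rep δ) - co.c (f ((τ.tw δ g : G), τ.s (δ * π g))) (τ.rep δ) := by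
  simp [homO₂]

/-- **Homotopy, degree 1**: `f - psiO₁ (coordinates of f) = d (homO₁ f)` on cocycles. -/
lemma sub_psiO₁ {f : G → A} (hf : f ∈ cocycles₁ A) :
    f - co.psiO₁ τ (fun ρ => (co.shift ρ).sh₁ f) = (d₀₁ A).hom (co.homO₁ τ f) := by
  ext g
  apply co.ext_c
  intro δ
  rw [Pi.sub_apply, map_sub, Pi.sub_apply, c_psiO₁, shift_sh₁_apply, co.c_d₀₁, c_homO₁, c_homO₁,
    τ.rep_mul]
  have H := (co.mem_cocycles₁_iff f).1 hf
  have h1 := H (τ.s δ) g (τ.rep δ)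
  have h2 := H (τ.tw δ g : G) (τ.s (δ * π g)) (τ.rep δ)
  rw [τ.tw_mul_s, τ.π_tw, mul_one] at h2
  rw [τ.rep_s] at h1
  linear_combination h2 - h1

/-- **Homotopy, degree 2**: `f - psiO₂ (coordinates of f) = d (homO₂ f)` on cocycles. -/
lemma sub_psiO₂ {f : G × G → A} (hf : f ∈ cocycles₂ A) :
    f - co.psiO₂ τ (fun ρ => (co.shift ρ).sh₂ f) = (d₁₂ A).hom (co.homO₂ τ f) := by
  ext ⟨g, h⟩
  apply co.ext_c
  intro δ
  rw [Pi.sub_apply, map_sub, Pi.sub_apply, c_psiO₂, shift_sh₂_apply, co.c_d₁₂, c_homO₂, c_homO₂,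
    c_homO₂, τ.rep_mul]
  have H := (co.mem_cocycles₂_iff f).1 hf
  have h1 := H (τ.s δ) g h (τ.rep δ)
  have h2 := H (τ.tw δ g : G) (τ.s (δ * π g)) h (τ.rep δ)
  have h3 := H (τ.tw δ g : G) (τ.tw (δ * π g) h : G) (τ.s (δ * π g * π h)) (τ.rep δ)
  rw [τ.rep_s] at h1
  rw [τ.tw_mul_s, τ.π_tw, mul_one] at h2
  rw [τ.π_tw, mul_one, τ.tw_mul_s] at h3
  rw [τ.tw_mul, map_mul, ← mul_assoc, Subgroup.coe_mul]
  linear_combination -h1 + h2 - h3

end CoindCoord

end Fermat.Agent.S55.ShapiroLevel32
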