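/-
S55 / 48-SHAPIRO-LEVEL (helper32): orbit form of Shapiro's lemma on level cohomology.

`𝒰 : LevelStr G`, `π : G →* Γ` ANY homomorphism to a finite group whose kernel contains a level,
`A : Rep k G` with coordinates `co : CoindCoord π A`, `τ : OrbSect π`.  Then

  `orbitShapiroH2 : 𝒰.H2 A ≃ₗ[k] (τ.R → (kerLevels 𝒰 hker).H2 (triv k π.ker))`,

the `ρ`-component being "restrict to `π.ker` and take the coordinate at `ρ`"
(`shH2 𝒰 hker (co.shift ρ)`).  Same in degree 1.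
-/
import Fermat.Agent.S55.ShapiroLevel32.Orbit

set_option autoImplicit false

universe u

open CategoryTheory groupCohomology

namespace Fermat.Agent.S55.ShapiroLevel32

open Fermat.Agent.S55.Profin15

variable {k G Γ : Type u} [CommRing k] [Group G] [Group Γ]

/-- finitely many levels have a common lower bound which is a level -/
lemma exists_level_le_of_finite (𝒰 : LevelStr G) {ι : Type*} [Finite ι] (U : ι → Subgroup G)
    (hU : ∀ i, U i ∈ 𝒰.levels) : ∃ W ∈ 𝒰.levels, ∀ i, W ≤ U i := by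
  classical
  haveI := Fintype.ofFinite ι
  have key : ∀ s : Finset ι, ∃ W ∈ 𝒰.levels, ∀ i ∈ s, W ≤ U i := by
    intro s
    induction s using Finset.induction_on with
    | empty =>
      obtain ⟨W, hW⟩ := 𝒰.nonempty
      exact ⟨W, hW, fun i hi => absurd hi (Finset.notMem_empty i)⟩
    | insert a s _ ih =>
      obtain ⟨W, hW, h⟩ := ih
      obtain ⟨W', hW', hle⟩ := 𝒰.directed W hW (U a) (hU a)
      refine ⟨W', hW', fun i hi => ?_⟩
      rcases Finset.mem_insert.1 hi with rfl | hi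
      · exact hle.trans inf_le_right
      · exact (hle.trans inf_le_left).trans (h i hi)
  obtain ⟨W, hW, h⟩ := key Finset.univ
  exact ⟨W, hW, fun i => h i (Finset.mem_univ i)⟩

section

variable (𝒰 : LevelStr G) {π : G →* Γ} (hker : ∃ V ∈ 𝒰.levels, V ≤ π.ker)
  {A : Rep k G} (co : CoindCoord π A) (τ : OrbSect π)

include hker in
/-- a finite family of level `1`-cochains of `π.ker` is constant modulo a common level -/
lemma exists_common_level₁ {ι X : Type*} [Finite ι] {F : ι → (π.ker → X)}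
    (hF : ∀ i, (kerLevels 𝒰 hker).IsConst₁ (F i)) :
    ∃ W ∈ 𝒰.levels, W ≤ π.ker ∧
      ∀ i (u s : π.ker), s ∈ W.subgroupOf π.ker → F i (u * s) = F i u := by
  choose W' hW' h using hF
  choose V hV hVle hVeq using hW'
  obtain ⟨W, hW, hle⟩ := exists_level_le_of_finite 𝒰 V hV
  rcases isEmpty_or_nonempty ι with hι | ⟨⟨i₀⟩⟩
  swap
  · refine ⟨W, hW, (hle i₀).trans (hVle i₀), fun i u s hs => h i u s ?_⟩
    rw [hVeq i]
    exact Subgroup.mem_subgroupOf.2 (hle i (Subgroup.mem_subgroupOf.1 hs))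
  · obtain ⟨V₀, hV₀, hV₀le⟩ := hker
    exact ⟨V₀, hV₀, hV₀le, fun i => (hι.false i).elim⟩

include hker in
/-- a finite family of level `2`-cochains of `π.ker` is constant modulo a common level -/
lemma exists_common_level₂ {ι X : Type*} [Finite ι] {F : ι → (π.ker × π.ker → X)}
    (hF : ∀ i, (kerLevels 𝒰 hker).IsConst₂ (F i)) :
    ∃ W ∈ 𝒰.levels, W ≤ π.ker ∧
      ∀ i (u u' s s' : π.ker), s ∈ W.subgroupOf π.ker → s' ∈ W.subgroupOf π.ker →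
        F i (u * s, u' * s') = F i (u, u') := by
  choose W' hW' h using hF
  choose V hV hVle hVeq using hW'
  obtain ⟨W, hW, hle⟩ := exists_level_le_of_finite 𝒰 V hV
  rcases isEmpty_or_nonempty ι with hι | ⟨⟨i₀⟩⟩
  swap
  · refine ⟨W, hW, (hle i₀).trans (hVle i₀), fun i u u' s s' hs hs' => h i u u' s s' ?_ ?_⟩
    · rw [hVeq i]
      exact Subgroup.mem_subgroupOf.2 (hle i (Subgroup.mem_subgroupOf.1 hs))
    · rw [hVeq i]
      exact Subgroup.mem_subgroupOf.2 (hle i (Subgroup.mem_subgroupOf.1 hs'))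
  · obtain ⟨V₀, hV₀, hV₀le⟩ := hker
    exact ⟨V₀, hV₀, hV₀le, fun i => (hι.false i).elim⟩

/-- `tw δ (g * w) = tw δ g * (conjugate of w)` for `w` in a level inside `π.ker` -/
lemma OrbSect.tw_mul_level {W : Subgroup G} [W.Normal] (hle : W ≤ π.ker) (δ : Γ) (g : G) {w : G}
    (hw : w ∈ W) : ∃ w' : π.ker, w' ∈ W.subgroupOf π.ker ∧ τ.tw δ (g * w) = τ.tw δ g * w' := by
  have hπw : π w = 1 := hle hw
  refine ⟨τ.tw (δ * π g) w, ?_, τ.tw_mul δ g w⟩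
  rw [Subgroup.mem_subgroupOf, τ.coe_tw_of_mem_ker _ hπw]
  exact Subgroup.Normal.conj_mem ‹_› w hw _

variable [Finite Γ]

include hker in
lemma isConst₁_psiO₁ {F : Γ → (π.ker → triv k π.ker)}
    (hF : ∀ δ, (kerLevels 𝒰 hker).IsConst₁ (F δ)) : 𝒰.IsConst₁ (co.psiO₁ τ F) := by
  obtain ⟨W, hW, hle, h⟩ := exists_common_level₁ 𝒰 hker hF
  haveI := 𝒰.normal W hW
  refine ⟨W, hW, fun g w hw => ?_⟩
  apply co.ext_c
  intro δ
  obtain ⟨w', hw', e⟩ := τ.tw_mul_level hle δ g hw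
  rw [CoindCoord.c_psiO₁, CoindCoord.c_psiO₁, e, h _ _ _ hw']

include hker in
lemma isConst₂_psiO₂ {F : Γ → (π.ker × π.ker → triv k π.ker)}
    (hF : ∀ δ, (kerLevels 𝒰 hker).IsConst₂ (F δ)) : 𝒰.IsConst₂ (co.psiO₂ τ F) := by
  obtain ⟨W, hW, hle, h⟩ := exists_common_level₂ 𝒰 hker hF
  haveI := 𝒰.normal W hW
  refine ⟨W, hW, fun g g' w w' hw hw' => ?_⟩
  apply co.ext_c
  intro δ
  have hπw : π w = 1 := hle hw
  obtain ⟨v, hv, e⟩ := τ.tw_mul_level hle δ g hw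
  obtain ⟨v', hv', e'⟩ := τ.tw_mul_level hle (δ * π g) g' hw'
  rw [CoindCoord.c_psiO₂, CoindCoord.c_psiO₂, map_mul, hπw, mul_one, e, e', h _ _ _ _ _ hv hv']

omit [Finite Γ] in
include hker in
lemma isConst₁_homO₂ {f : G × G → A} (hf : 𝒰.IsConst₂ f) : 𝒰.IsConst₁ (co.homO₂ τ f) := by
  obtain ⟨W, hW, hle, h⟩ := IsConst₂.exists_le_ker 𝒰 hker hf
  haveI := 𝒰.normal W hW
  refine ⟨W, hW, fun g w hw => ?_⟩
  apply co.ext_c
  intro δ
  have hπw : π w = 1 := hle hw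
  obtain ⟨v, hv, e⟩ := τ.tw_mul_level hle δ g hw
  have hv' : (v : G) ∈ W := Subgroup.mem_subgroupOf.1 hv
  rw [CoindCoord.c_homO₂, CoindCoord.c_homO₂, map_mul, hπw, mul_one, e, Subgroup.coe_mul]
  have e1 := h (τ.s δ) g 1 w (one_mem _) hw
  have e2 := h (τ.tw δ g : G) (τ.s (δ * π g)) (v : G) 1 hv' (one_mem _)
  rw [mul_one] at e1 e2
  rw [e1, e2]

omit [Finite Γ] in
/-- `psiO₂` only depends on the values at the representatives -/
lemma psiO₂_congr {F F' : Γ → (π.ker × π.ker → triv k π.ker)}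
    (h : ∀ ρ : τ.R, F (ρ : Γ) = F' (ρ : Γ)) : co.psiO₂ τ F = co.psiO₂ τ F' := by
  ext ⟨g, g'⟩
  apply co.ext_c
  intro δ
  rw [CoindCoord.c_psiO₂, CoindCoord.c_psiO₂]
  exact congrFun (h (τ.repR δ)) _

omit [Finite Γ] in
/-- `psiO₁` only depends on the values at the representatives -/
lemma psiO₁_congr {F F' : Γ → (π.ker → triv k π.ker)}
    (h : ∀ ρ : τ.R, F (ρ : Γ) = F' (ρ : Γ)) : co.psiO₁ τ F = co.psiO₁ τ F' := by
  ext g
  apply co.ext_c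
  intro δ
  rw [CoindCoord.c_psiO₁, CoindCoord.c_psiO₁]
  exact congrFun (h (τ.repR δ)) _

/-! ### The isomorphisms -/

/-- all coordinates at the representatives, degree 2 -/
def orbH2 : 𝒰.H2 A →ₗ[k] (τ.R → (kerLevels 𝒰 hker).H2 (triv k π.ker)) :=
  LinearMap.pi fun ρ => shH2 𝒰 hker (co.shift (ρ : Γ))

/-- all coordinates at the representatives, degree 1 -/
def orbH1 : 𝒰.H1 A →ₗ[k] (τ.R → (kerLevels 𝒰 hker).H1 (triv k π.ker)) :=
  LinearMap.pi fun ρ => shH1 𝒰 hker (co.shift (ρ : Γ))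

omit [Finite Γ] in
@[simp] lemma orbH2_apply (x : 𝒰.H2 A) (ρ : τ.R) :
    orbH2 𝒰 hker co τ x ρ = shH2 𝒰 hker (co.shift (ρ : Γ)) x := rfl

omit [Finite Γ] in
@[simp] lemma orbH1_apply (x : 𝒰.H1 A) (ρ : τ.R) :
    orbH1 𝒰 hker co τ x ρ = shH1 𝒰 hker (co.shift (ρ : Γ)) x := rfl

theorem orbH2_injective : Function.Injective (orbH2 𝒰 hker co τ) := by
  rw [← LinearMap.ker_eq_bot, LinearMap.ker_eq_bot']
  intro x hx
  obtain ⟨f, rfl⟩ := Submodule.mkQ_surjective _ x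
  have hρ : ∀ ρ : τ.R, ∃ y : π.ker → triv k π.ker, (kerLevels 𝒰 hker).IsConst₁ y ∧
      (d₁₂ (triv k π.ker)).hom y = (co.shift (ρ : Γ)).sh₂ (f : G × G → A) := by
    intro ρ
    have h0 : shH2 𝒰 hker (co.shift (ρ : Γ)) (Submodule.mkQ _ f) = 0 := congrFun hx ρ
    have h1 : (kerLevels 𝒰 hker).H2π (triv k π.ker) (shZ₂ 𝒰 hker (co.shift (ρ : Γ)) f) = 0 := h0
    rw [(kerLevels 𝒰 hker).H2π_eq_zero_iff, coe_shZ₂] at h1
    exact ((kerLevels 𝒰 hker).mem_B₂_iff _ _).1 h1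
  choose y hy hyd using hρ
  have hf := co.sub_psiO₂ τ f.2.1
  have hcongr : co.psiO₂ τ (fun ρ => (co.shift ρ).sh₂ (f : G × G → A)) =
      co.psiO₂ τ (fun δ => (d₁₂ (triv k π.ker)).hom (y (τ.repR δ))) := by
    apply psiO₂_congr
    intro ρ
    rw [τ.repR_coe, hyd]
  rw [hcongr, co.psiO₂_d₁₂ τ, sub_eq_iff_eq_add, ← map_add] at hf
  show 𝒰.H2π A f = 0
  rw [𝒰.H2π_eq_zero_iff, 𝒰.mem_B₂_iff]
  refine ⟨_, ?_, hf.symm⟩
  exact (isConst₁_homO₂ 𝒰 hker co τ f.2.2).add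
    (isConst₁_psiO₁ 𝒰 hker co τ (fun δ => hy (τ.repR δ)))

theorem orbH2_surjective : Function.Surjective (orbH2 𝒰 hker co τ) := by
  intro z
  have hz : ∀ ρ : τ.R, ∃ F : ↥((kerLevels 𝒰 hker).Z₂ (triv k π.ker)),
      (kerLevels 𝒰 hker).H2π (triv k π.ker) F = z ρ := fun ρ => Submodule.mkQ_surjective _ (z ρ)
  choose F hF using hz
  let FF : Γ → (π.ker × π.ker → triv k π.ker) := fun δ => (F (τ.repR δ)).1
  have hcoc : co.psiO₂ τ FF ∈ 𝒰.Z₂ A :=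
    ⟨co.psiO₂_mem_cocycles₂ τ (fun δ => (F (τ.repR δ)).2.1),
      isConst₂_psiO₂ 𝒰 hker co τ (fun δ => (F (τ.repR δ)).2.2)⟩
  refine ⟨𝒰.H2π A ⟨_, hcoc⟩, ?_⟩
  funext ρ
  rw [orbH2_apply, ← hF ρ]
  show (kerLevels 𝒰 hker).H2π (triv k π.ker) (shZ₂ 𝒰 hker (co.shift (ρ : Γ)) ⟨_, hcoc⟩) = _
  congr 1
  apply Subtype.ext
  rw [coe_shZ₂]
  show (co.shift (ρ : Γ)).sh₂ (co.psiO₂ τ FF) = _
  rw [co.shift_sh₂_psiO₂ τ FF ρ]
  show ((F (τ.repR (ρ : Γ))).1 : π.ker × π.ker → triv k π.ker) = _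
  rw [τ.repR_coe]

/-- **Orbit form of Shapiro's lemma for level cohomology, degree 2.** -/
noncomputable def orbitShapiroH2 :
    𝒰.H2 A ≃ₗ[k] (τ.R → (kerLevels 𝒰 hker).H2 (triv k π.ker)) :=
  LinearEquiv.ofBijective (orbH2 𝒰 hker co τ)
    ⟨orbH2_injective 𝒰 hker co τ, orbH2_surjective 𝒰 hker co τ⟩

@[simp] lemma orbitShapiroH2_apply (x : 𝒰.H2 A) (ρ : τ.R) :
    orbitShapiroH2 𝒰 hker co τ x ρ = shH2 𝒰 hker (co.shift (ρ : Γ)) x := rfl

omit [Finite Γ] in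
theorem orbH1_injective : Function.Injective (orbH1 𝒰 hker co τ) := by
  rw [← LinearMap.ker_eq_bot, LinearMap.ker_eq_bot']
  intro x hx
  obtain ⟨f, rfl⟩ := Submodule.mkQ_surjective _ x
  have hρ : ∀ ρ : τ.R, (co.shift (ρ : Γ)).sh₁ (f : G → A) = 0 := by
    intro ρ
    have h0 : shH1 𝒰 hker (co.shift (ρ : Γ)) (Submodule.mkQ _ f) = 0 := congrFun hx ρ
    have h1 : (kerLevels 𝒰 hker).H1π (triv k π.ker) (shZ₁ 𝒰 hker (co.shift (ρ : Γ)) f) = 0 := h0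
    rw [(kerLevels 𝒰 hker).H1π_eq_zero_iff, coe_shZ₁] at h1
    obtain ⟨a, ha⟩ := h1
    have ha' : (d₀₁ (triv k π.ker)).hom a = (co.shift (ρ : Γ)).sh₁ (f : G → A) := ha
    rw [← ha']
    funext u
    exact d₀₁_triv a u
  have hf := co.sub_psiO₁ τ f.2.1
  have hcongr : co.psiO₁ τ (fun ρ => (co.shift ρ).sh₁ (f : G → A)) = co.psiO₁ τ 0 := by
    apply psiO₁_congr
    intro ρ
    rw [hρ ρ]
    rfl
  rw [hcongr, map_zero, sub_zero] at hf
  show 𝒰.H1π A f = 0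
  rw [𝒰.H1π_eq_zero_iff]
  exact ⟨_, hf.symm⟩

theorem orbH1_surjective : Function.Surjective (orbH1 𝒰 hker co τ) := by
  intro z
  have hz : ∀ ρ : τ.R, ∃ F : ↥((kerLevels 𝒰 hker).Z₁ (triv k π.ker)),
      (kerLevels 𝒰 hker).H1π (triv k π.ker) F = z ρ := fun ρ => Submodule.mkQ_surjective _ (z ρ)
  choose F hF using hz
  let FF : Γ → (π.ker → triv k π.ker) := fun δ => (F (τ.repR δ)).1
  have hcoc : co.psiO₁ τ FF ∈ 𝒰.Z₁ A :=
    ⟨co.psiO₁_mem_cocycles₁ τ (fun δ => (F (τ.repR δ)).2.1),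
      isConst₁_psiO₁ 𝒰 hker co τ (fun δ => (F (τ.repR δ)).2.2)⟩
  refine ⟨𝒰.H1π A ⟨_, hcoc⟩, ?_⟩
  funext ρ
  rw [orbH1_apply, ← hF ρ]
  show (kerLevels 𝒰 hker).H1π (triv k π.ker) (shZ₁ 𝒰 hker (co.shift (ρ : Γ)) ⟨_, hcoc⟩) = _
  congr 1
  apply Subtype.ext
  rw [coe_shZ₁]
  show (co.shift (ρ : Γ)).sh₁ (co.psiO₁ τ FF) = _
  rw [co.shift_sh₁_psiO₁ τ FF ρ]
  show ((F (τ.repR (ρ : Γ))).1 : π.ker → triv k π.ker) = _
  rw [τ.repR_coe]

/-- **Orbit form of Shapiro's lemma for level cohomology, degree 1.** -/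
noncomputable def orbitShapiroH1 :
    𝒰.H1 A ≃ₗ[k] (τ.R → (kerLevels 𝒰 hker).H1 (triv k π.ker)) :=
  LinearEquiv.ofBijective (orbH1 𝒰 hker co τ)
    ⟨orbH1_injective 𝒰 hker co τ, orbH1_surjective 𝒰 hker co τ⟩

@[simp] lemma orbitShapiroH1_apply (x : 𝒰.H1 A) (ρ : τ.R) :
    orbitShapiroH1 𝒰 hker co τ x ρ = shH1 𝒰 hker (co.shift (ρ : Γ)) x := rfl

end

end Fermat.Agent.S55.ShapiroLevel32
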