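/-
S55 / 48-SHAPIRO-LEVEL (helper32): Mackey formula with restriction maps.

`r : H →* G` (local group → global group), level-continuous; `π : G →* Γ`; `A : Rep k G` with
coordinates `co : CoindCoord π A`.  Then `co.res r : CoindCoord (π.comp r) (Rep.res r A)` and for
every `t : G` the coordinate at `π t` of the localisation of a class is the RESTRICTION ALONG THE
CONJUGATED EMBEDDING `conjKer r t : (π.comp r).ker →* π.ker`, `n ↦ t * r n * t⁻¹`, of its Shapiro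
image:

  `shH2 𝒱 hker' ((co.res r).shift (π t)) (hr.res₂ A x) = trivRes₂ _ (shH2 𝒰 hker co x)`.

Same in degree 1.
-/
import Fermat.Agent.S55.ShapiroLevel32.OrbitEquiv
import Fermat.Agent.S55.ShapiroLevel32.Conj
import Fermat.Agent.S55.Profin15.Restriction

set_option autoImplicit false

universe u

open CategoryTheory groupCohomology

namespace Fermat.Agent.S55.ShapiroLevel32

open Fermat.Agent.S55.Profin15

variable {k : Type u} [CommRing k]

/-! ### Restriction of trivial-coefficient classes along a level-continuous homomorphism -/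

section TrivRes

variable {H₁ H₂ : Type u} [Group H₁] [Group H₂] (φ : H₂ →* H₁)

/-- pull-back of trivial-coefficient `1`-cochains -/
def trivPull₁ : (H₁ → triv k H₁) →ₗ[k] (H₂ → triv k H₂) where
  toFun x := x ∘ φ
  map_add' _ _ := rfl
  map_smul' _ _ := rfl

/-- pull-back of trivial-coefficient `2`-cochains -/
def trivPull₂ : (H₁ × H₁ → triv k H₁) →ₗ[k] (H₂ × H₂ → triv k H₂) where
  toFun x := x ∘ Prod.map φ φ
  map_add' _ _ := rfl
  map_smul' _ _ := rfl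

@[simp] lemma trivPull₁_apply (x : H₁ → triv k H₁) (h : H₂) :
    trivPull₁ φ x h = x (φ h) := rfl

@[simp] lemma trivPull₂_apply (x : H₁ × H₁ → triv k H₁) (h h' : H₂) :
    trivPull₂ φ x (h, h') = x (φ h, φ h') := rfl

lemma trivPull₁_mem_cocycles₁ {x : H₁ → triv k H₁} (hx : x ∈ cocycles₁ (triv k H₁)) :
    trivPull₁ φ x ∈ cocycles₁ (triv k H₂) := by
  rw [mem_cocycles₁_triv] at hx ⊢
  intro u v
  simp only [trivPull₁_apply, map_mul, hx]

lemma trivPull₂_mem_cocycles₂ {x : H₁ × H₁ → triv k H₁} (hx : x ∈ cocycles₂ (triv k H₁)) :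
    trivPull₂ φ x ∈ cocycles₂ (triv k H₂) := by
  rw [mem_cocycles₂_triv] at hx ⊢
  intro u v w
  simp only [trivPull₂_apply, map_mul, hx]

lemma trivPull₂_d₁₂ (y : H₁ → triv k H₁) :
    trivPull₂ φ ((d₁₂ (triv k H₁)).hom y) = (d₁₂ (triv k H₂)).hom (trivPull₁ φ y) := by
  ext ⟨u, v⟩
  rw [trivPull₂_apply, d₁₂_triv, d₁₂_triv]
  simp only [trivPull₁_apply, map_mul]

variable (k) {φ} {𝒱₁ : LevelStr H₁} {𝒱₂ : LevelStr H₂} (hφ : LevelStr.IsContinuous 𝒱₂ 𝒱₁ φ)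

/-- restriction on trivial-coefficient level `2`-cocycles -/
def trivResZ₂ : ↥(𝒱₁.Z₂ (triv k H₁)) →ₗ[k] ↥(𝒱₂.Z₂ (triv k H₂)) :=
  ((trivPull₂ φ).comp (𝒱₁.Z₂ (triv k H₁)).subtype).codRestrict _
    (fun x => ⟨trivPull₂_mem_cocycles₂ φ x.2.1, hφ.isConst₂ x.2.2⟩)

/-- restriction on trivial-coefficient level `1`-cocycles -/
def trivResZ₁ : ↥(𝒱₁.Z₁ (triv k H₁)) →ₗ[k] ↥(𝒱₂.Z₁ (triv k H₂)) :=
  ((trivPull₁ φ).comp (𝒱₁.Z₁ (triv k H₁)).subtype).codRestrict _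
    (fun x => ⟨trivPull₁_mem_cocycles₁ φ x.2.1, hφ.isConst₁ x.2.2⟩)

@[simp] lemma coe_trivResZ₂ (x : ↥(𝒱₁.Z₂ (triv k H₁))) :
    ((trivResZ₂ k hφ x : ↥(𝒱₂.Z₂ (triv k H₂))) : H₂ × H₂ → triv k H₂) =
      trivPull₂ φ (x : H₁ × H₁ → triv k H₁) := rfl

@[simp] lemma coe_trivResZ₁ (x : ↥(𝒱₁.Z₁ (triv k H₁))) :
    ((trivResZ₁ k hφ x : ↥(𝒱₂.Z₁ (triv k H₂))) : H₂ → triv k H₂) =
      trivPull₁ φ (x : H₁ → triv k H₁) := rfl

/-- **restriction** `H²(𝒱₁; k) → H²(𝒱₂; k)` along a level-continuous homomorphism -/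
def trivRes₂ : 𝒱₁.H2 (triv k H₁) →ₗ[k] 𝒱₂.H2 (triv k H₂) :=
  Submodule.mapQ _ _ (trivResZ₂ k hφ) (by
    rintro x hx
    rw [Submodule.mem_comap] at hx ⊢
    obtain ⟨y, hy, hyx⟩ := (𝒱₁.mem_B₂_iff _ _).1 hx
    refine (𝒱₂.mem_B₂_iff _ _).2 ⟨trivPull₁ φ y, hφ.isConst₁ hy, ?_⟩
    rw [← trivPull₂_d₁₂, hyx]
    rfl)

/-- **restriction** `H¹(𝒱₁; k) → H¹(𝒱₂; k)` along a level-continuous homomorphism -/
def trivRes₁ : 𝒱₁.H1 (triv k H₁) →ₗ[k] 𝒱₂.H1 (triv k H₂) :=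
  Submodule.mapQ _ _ (trivResZ₁ k hφ) (by
    rintro x ⟨a, ha⟩
    rw [Submodule.mem_comap, Submodule.mem_comap]
    change trivPull₁ φ (x : H₁ → triv k H₁) ∈ coboundaries₁ (triv k H₂)
    have ha' : (d₀₁ (triv k H₁)).hom a = (x : H₁ → triv k H₁) := ha
    have h0 : (x : H₁ → triv k H₁) = 0 := by
      rw [← ha']
      funext u
      exact d₀₁_triv a u
    rw [h0, map_zero]
    exact Submodule.zero_mem _)

@[simp] lemma trivRes₂_mk (x : ↥(𝒱₁.Z₂ (triv k H₁))) :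
    trivRes₂ k hφ (𝒱₁.H2π _ x) = 𝒱₂.H2π _ (trivResZ₂ k hφ x) := rfl

@[simp] lemma trivRes₁_mk (x : ↥(𝒱₁.Z₁ (triv k H₁))) :
    trivRes₁ k hφ (𝒱₁.H1π _ x) = 𝒱₂.H1π _ (trivResZ₁ k hφ x) := rfl

end TrivRes

/-! ### Mackey -/

variable {G H Γ : Type u} [Group G] [Group H] [Group Γ]

section

variable {π : G →* Γ} {A : Rep k G} (co : CoindCoord π A) (r : H →* G)

/-- restriction of coordinates along `r : H →* G` -/
def CoindCoord.res : CoindCoord (π.comp r) (Rep.res r A) where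
  c := co.c
  c_ρ h a δ := co.c_ρ (r h) a δ

@[simp] lemma CoindCoord.res_c (a : A) (δ : Γ) : (co.res r).c a δ = co.c a δ := rfl

variable (π) in
/-- the conjugated embedding `n ↦ t * r n * t⁻¹` of `(π.comp r).ker` into `π.ker` -/
def conjKer (t : G) : (π.comp r).ker →* π.ker where
  toFun n := ⟨t * r n * t⁻¹, by
    have hn : π (r n) = 1 := n.2
    rw [MonoidHom.mem_ker, map_mul, map_mul, hn, mul_one, map_inv, mul_inv_cancel]⟩
  map_one' := by
    apply Subtype.ext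
    simp
  map_mul' a b := by
    apply Subtype.ext
    simp only [Subgroup.coe_mul, map_mul]
    group

@[simp] lemma coe_conjKer (t : G) (n : (π.comp r).ker) :
    ((conjKer π r t n : π.ker) : G) = t * r n * t⁻¹ := rfl

variable {r} in
/-- the kernel of `π.comp r` contains a level as soon as `π.ker` does -/
lemma exists_le_ker_comp {𝒰 : LevelStr G} {𝒱 : LevelStr H} (hr : LevelStr.IsContinuous 𝒱 𝒰 r)
    (hker : ∃ V ∈ 𝒰.levels, V ≤ π.ker) : ∃ V ∈ 𝒱.levels, V ≤ (π.comp r).ker := by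
  obtain ⟨V, hV, hle⟩ := hker
  obtain ⟨V', hV', hle'⟩ := hr V hV
  exact ⟨V', hV', fun n hn => hle (hle' hn)⟩

variable {r} in
lemma isContinuous_conjKer {𝒰 : LevelStr G} {𝒱 : LevelStr H}
    (hr : LevelStr.IsContinuous 𝒱 𝒰 r) (hker : ∃ V ∈ 𝒰.levels, V ≤ π.ker)
    (hker' : ∃ V ∈ 𝒱.levels, V ≤ (π.comp r).ker) (t : G) :
    LevelStr.IsContinuous (kerLevels 𝒱 hker') (kerLevels 𝒰 hker) (conjKer π r t) := by
  rintro W ⟨V, hV, hle, rfl⟩
  obtain ⟨V', hV', hle'⟩ := hr V hV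
  have hV'ker : V' ≤ (π.comp r).ker := fun n hn => hle (hle' hn)
  refine ⟨V'.subgroupOf (π.comp r).ker, ⟨V', hV', hV'ker, rfl⟩, fun n hn => ?_⟩
  have hrn : r (n : H) ∈ V := hle' (Subgroup.mem_subgroupOf.1 hn)
  rw [Subgroup.mem_comap, Subgroup.mem_subgroupOf, coe_conjKer]
  exact (𝒰.normal V hV).conj_mem _ hrn t

/-- the Mackey homotopy, degree 2 -/
def mackeyHom₂ (t : G) (f : G × G → A) : (π.comp r).ker → triv k (π.comp r).ker :=
  fun u => co.c (conjHom₂ A t f (t * r u * t⁻¹)) 1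

/-- the Mackey homotopy, degree 1 (a constant) -/
def mackeyHom₁ (t : G) (f : G → A) : triv k (π.comp r).ker := co.c (f t) 1

/-- **Mackey formula, cochain level, degree 2.** -/
lemma mackey_cochain₂ {f : G × G → A} (hf : f ∈ cocycles₂ A) (t : G) :
    ((co.res r).shift (π t)).sh₂ (LevelStr.pull₂ r A f) -
        trivPull₂ (conjKer π r t) (co.sh₂ f) =
      (d₁₂ (triv k (π.comp r).ker)).hom (mackeyHom₂ co r t f) := by
  ext ⟨u, v⟩
  have hu : π (r (u : H)) = 1 := u.2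
  have hconj : π (t * r (u : H) * t⁻¹) = 1 := by
    rw [map_mul, map_mul, hu, mul_one, map_inv, mul_inv_cancel]
  have key := congrArg (fun a => co.c a 1) (conj_cocycle₂ A hf t (r (u : H)) (r (v : H)))
  simp only [map_sub, Pi.sub_apply, co.c_d₁₂, co.c_ρ, one_mul, hconj, mul_one] at key
  have e : t * r ((u * v : (π.comp r).ker) : H) * t⁻¹ =
      t * r (u : H) * t⁻¹ * (t * r (v : H) * t⁻¹) := by
    rw [Subgroup.coe_mul, map_mul]
    group
  rw [Pi.sub_apply, CoindCoord.shift_sh₂_apply, trivPull₂_apply, CoindCoord.sh₂_apply,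
    d₁₂_triv]
  simp only [mackeyHom₂, e, coe_conjKer, LevelStr.pull₂_apply]
  exact key

/-- **Mackey formula, cochain level, degree 1.** -/
lemma mackey_cochain₁ {f : G → A} (hf : f ∈ cocycles₁ A) (t : G) :
    ((co.res r).shift (π t)).sh₁ (LevelStr.pull₁ r A f) =
      trivPull₁ (conjKer π r t) (co.sh₁ f) := by
  ext u
  have hu : π (r (u : H)) = 1 := u.2
  have hconj : π (t * r (u : H) * t⁻¹) = 1 := by
    rw [map_mul, map_mul, hu, mul_one, map_inv, mul_inv_cancel]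
  have key := congrArg (fun a => co.c a 1) (conj_cocycle₁ A hf t (r (u : H)))
  simp only [map_sub, Pi.sub_apply, co.c_d₀₁, co.c_ρ, one_mul, hconj, mul_one, sub_self] at key
  rw [CoindCoord.shift_sh₁_apply, trivPull₁_apply, CoindCoord.sh₁_apply]
  simp only [coe_conjKer, LevelStr.pull₁_apply]
  exact sub_eq_zero.1 key

variable {r} in
lemma isConst₁_mackeyHom₂ {𝒰 : LevelStr G} {𝒱 : LevelStr H}
    (hr : LevelStr.IsContinuous 𝒱 𝒰 r) (hker' : ∃ V ∈ 𝒱.levels, V ≤ (π.comp r).ker) (t : G)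
    {f : G × G → A} (hf : 𝒰.IsConst₂ f) :
    (kerLevels 𝒱 hker').IsConst₁ (mackeyHom₂ co r t f) := by
  obtain ⟨V, hV, h⟩ := isConst₁_conjHom₂ A 𝒰 t hf
  obtain ⟨V', hV', hle'⟩ := hr V hV
  obtain ⟨V₀, hV₀, hV₀le⟩ := hker'
  obtain ⟨W, hW, hWle⟩ := 𝒱.directed V' hV' V₀ hV₀
  refine ⟨W.subgroupOf (π.comp r).ker, ⟨W, hW, (hWle.trans inf_le_right).trans hV₀le, rfl⟩,
    fun u s hs => ?_⟩
  have hrs : r (s : H) ∈ V := hle' (hWle.trans inf_le_left (Subgroup.mem_subgroupOf.1 hs))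
  have e : t * r ((u * s : (π.comp r).ker) : H) * t⁻¹ =
      t * r (u : H) * t⁻¹ * (t * r (s : H) * t⁻¹) := by
    rw [Subgroup.coe_mul, map_mul]
    group
  simp only [mackeyHom₂]
  rw [e, h _ _ ((𝒰.normal V hV).conj_mem _ hrs t)]

variable {r} {𝒰 : LevelStr G} {𝒱 : LevelStr H} (hr : LevelStr.IsContinuous 𝒱 𝒰 r)
  (hker : ∃ V ∈ 𝒰.levels, V ≤ π.ker) (hker' : ∃ V ∈ 𝒱.levels, V ≤ (π.comp r).ker)

/-- **Mackey formula with restriction maps, degree 2**: the coordinate at `π t` of the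
localisation is the restriction along the conjugated embedding of the Shapiro image. -/
theorem mackey₂ (t : G) (x : 𝒰.H2 A) :
    shH2 𝒱 hker' ((co.res r).shift (π t)) (hr.res₂ A x) =
      trivRes₂ k (isContinuous_conjKer hr hker hker' t) (shH2 𝒰 hker co x) := by
  obtain ⟨f, rfl⟩ := Submodule.mkQ_surjective _ x
  show (kerLevels 𝒱 hker').H2π _ (shZ₂ 𝒱 hker' ((co.res r).shift (π t)) (hr.resZ₂ A f)) =
    (kerLevels 𝒱 hker').H2π _
      (trivResZ₂ k (isContinuous_conjKer hr hker hker' t) (shZ₂ 𝒰 hker co f))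
  rw [← sub_eq_zero, ← map_sub, (kerLevels 𝒱 hker').H2π_eq_zero_iff,
    (kerLevels 𝒱 hker').mem_B₂_iff]
  refine ⟨mackeyHom₂ co r t (f : G × G → A), isConst₁_mackeyHom₂ co hr hker' t f.2.2, ?_⟩
  rw [← mackey_cochain₂ co r f.2.1 t]
  rfl

/-- **Mackey formula with restriction maps, degree 1.** -/
theorem mackey₁ (t : G) (x : 𝒰.H1 A) :
    shH1 𝒱 hker' ((co.res r).shift (π t)) (hr.res₁ A x) =
      trivRes₁ k (isContinuous_conjKer hr hker hker' t) (shH1 𝒰 hker co x) := by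
  obtain ⟨f, rfl⟩ := Submodule.mkQ_surjective _ x
  show (kerLevels 𝒱 hker').H1π _ (shZ₁ 𝒱 hker' ((co.res r).shift (π t)) (hr.resZ₁ A f)) =
    (kerLevels 𝒱 hker').H1π _
      (trivResZ₁ k (isContinuous_conjKer hr hker hker' t) (shZ₁ 𝒰 hker co f))
  congr 1
  apply Subtype.ext
  exact mackey_cochain₁ co r f.2.1 t

/-- the case `t = 1`: plain restriction -/
theorem mackey₂_one (x : 𝒰.H2 A) :
    shH2 𝒱 hker' (co.res r) (hr.res₂ A x) =
      trivRes₂ k (isContinuous_conjKer hr hker hker' 1) (shH2 𝒰 hker co x) := by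
  obtain ⟨f, rfl⟩ := Submodule.mkQ_surjective _ x
  show (kerLevels 𝒱 hker').H2π _ (shZ₂ 𝒱 hker' (co.res r) (hr.resZ₂ A f)) =
    (kerLevels 𝒱 hker').H2π _
      (trivResZ₂ k (isContinuous_conjKer hr hker hker' 1) (shZ₂ 𝒰 hker co f))
  congr 1
  apply Subtype.ext
  funext ⟨u, v⟩
  show co.c ((f : G × G → A) (r (u : H), r (v : H))) 1 =
    co.c ((f : G × G → A) (1 * r (u : H) * 1⁻¹, 1 * r (v : H) * 1⁻¹)) 1
  simp

end

end Fermat.Agent.S55.ShapiroLevel32
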