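/-
S55 / 48-SHAPIRO-LEVEL (helper32): coordinates for the permutation module `k[G ⧸ U]`
(`= Contract34.perm`), `U` a normal subgroup of finite index:

  `permCoord U : CoindCoord (QuotientGroup.mk' U) (Rep.ofMulAction k G (G ⧸ U))`,
  `(permCoord U).c x δ = x.coeff δ⁻¹`.
-/
import Fermat.Agent.S55.ShapiroLevel32.Core

set_option autoImplicit false

universe u

open CategoryTheory groupCohomology

namespace Fermat.Agent.S55.ShapiroLevel32

variable {k G : Type u} [CommRing k] [Group G]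

lemma smul_eq_mk_mul (U : Subgroup G) [U.Normal] (g : G) (δ : G ⧸ U) :
    g • δ = (g : G ⧸ U) * δ := by
  induction δ using QuotientGroup.induction_on with
  | H h => rfl

/-- the coordinate isomorphism `k[G ⧸ U] ≃ ((G ⧸ U) → k)`, `x ↦ (δ ↦ x.coeff δ⁻¹)` -/
noncomputable def permCoordEquiv (U : Subgroup G) [U.Normal] [Finite (G ⧸ U)] :
    MonoidAlgebra k (G ⧸ U) ≃ₗ[k] ((G ⧸ U) → k) :=
  ((MonoidAlgebra.coeffLinearEquiv k).trans (Finsupp.linearEquivFunOnFinite k k (G ⧸ U))).trans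
    (LinearEquiv.funCongrLeft k k (Equiv.inv (G ⧸ U)))

@[simp] lemma permCoordEquiv_apply (U : Subgroup G) [U.Normal] [Finite (G ⧸ U)]
    (x : MonoidAlgebra k (G ⧸ U)) (δ : G ⧸ U) : permCoordEquiv U x δ = x.coeff δ⁻¹ := rfl

/-- coordinates of the permutation module `k[G ⧸ U]` -/
noncomputable def permCoord (U : Subgroup G) [U.Normal] [Finite (G ⧸ U)] :
    CoindCoord (QuotientGroup.mk' U) (Rep.ofMulAction k G (G ⧸ U)) where
  c := permCoordEquiv U
  c_ρ g a δ := by
    show ((Representation.ofMulAction k G (G ⧸ U)) g a).coeff δ⁻¹ = _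
    rw [Representation.coeff_ofMulAction, permCoordEquiv_apply, smul_eq_mk_mul, mul_inv_rev,
      QuotientGroup.mk'_apply, QuotientGroup.mk_inv]

@[simp] lemma permCoord_c (U : Subgroup G) [U.Normal] [Finite (G ⧸ U)]
    (x : Rep.ofMulAction k G (G ⧸ U)) (δ : G ⧸ U) :
    (permCoord (k := k) U).c x δ = MonoidAlgebra.coeff x δ⁻¹ := rfl

end Fermat.Agent.S55.ShapiroLevel32
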