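/-
S55 / 48-SHAPIRO-LEVEL (helper32): plug (P5) `Contract34.LocalDim` LITERALLY, from the local base
case "`H²(G_{L_w}, 𝔽_p)` has dimension `≤ 1`" stated in level cohomology of the open subgroup
`rq⁻¹(U)` of the local Galois group (`LocalBaseDim`).

Chain: `continuousH2 rq (res rq (perm p U)) ≃ (pullLevels rq).H2 (res rq (perm p U))`
(`Profin15.continuousH2Equiv`) `≃ (τ.R → H²(rq⁻¹(U)-levels, k))` (`orbitShapiroH2` with the
coordinates `(permCoord U).res rq`), and `τ.R ≃ D_q \ G_ℚ / U`.
-/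
import Fermat.Agent.S55.ShapiroLevel32.Mackey
import Fermat.Agent.S55.ShapiroLevel32.Perm
import Fermat.Agent.S55.Contract34

set_option autoImplicit false

universe u

open CategoryTheory Module groupCohomology ExtCitation

namespace Fermat.Agent.S55.ShapiroLevel32

open Fermat.Agent.S55.Profin15
open Fermat.Agent.Lib.FrobeniusExists (Qb GQ)

/-! ### Counting the orbit representatives -/

section Count

variable {G H : Type u} [Group G] [Group H] (U : Subgroup G) [U.Normal] (r : H →* G)

/-- the orbit representatives of `H` on `G ⧸ U` are in bijection with the double cosets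
`r(H) \ G / U` -/
theorem card_R_eq_card_doubleCoset (τ : OrbSect ((QuotientGroup.mk' U).comp r)) :
    Nat.card τ.R = Nat.card (DoubleCoset.Quotient (r.range : Set G) (U : Set G)) := by
  symm
  let f : DoubleCoset.Quotient (r.range : Set G) (U : Set G) → τ.R :=
    Quotient.lift (s := DoubleCoset.setoid (r.range : Set G) (U : Set G))
      (fun g => τ.repR ((g : G ⧸ U))⁻¹) (by
        intro x y hxy
        obtain ⟨a, ⟨h, rfl⟩, b, hb, rfl⟩ := DoubleCoset.rel_iff.1 hxy
        apply Subtype.ext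
        show τ.rep _ = τ.rep _
        have hb' : ((b : G) : G ⧸ U) = 1 := (QuotientGroup.eq_one_iff b).2 hb
        have e : (((r h * x * b : G) : G ⧸ U))⁻¹ =
            ((x : G ⧸ U))⁻¹ * ((QuotientGroup.mk' U).comp r) h⁻¹ := by
          rw [QuotientGroup.mk_mul, QuotientGroup.mk_mul, hb', mul_one, mul_inv_rev,
            MonoidHom.comp_apply, QuotientGroup.mk'_apply, map_inv, QuotientGroup.mk_inv]
        rw [e, τ.rep_mul])
  refine Nat.card_congr (Equiv.ofBijective f ⟨?_, ?_⟩)
  · intro x y hxy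
    induction x using Quotient.inductionOn with
    | h x =>
    induction y using Quotient.inductionOn with
    | h y =>
    have h1 : τ.rep ((x : G ⧸ U))⁻¹ = τ.rep ((y : G ⧸ U))⁻¹ := congrArg Subtype.val hxy
    have hx := τ.rep_s ((x : G ⧸ U))⁻¹
    have hy := τ.rep_s ((y : G ⧸ U))⁻¹
    rw [h1] at hx
    -- `π y = π (r (s₂⁻¹ * s₁)) * π x`
    set s₁ := τ.s ((x : G ⧸ U))⁻¹
    set s₂ := τ.s ((y : G ⧸ U))⁻¹
    set ρ := τ.rep ((y : G ⧸ U))⁻¹
    have hπ : ((y : G) : G ⧸ U) = ((r (s₂⁻¹ * s₁) * x : G) : G ⧸ U) := by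
      have hx' : ((x : G ⧸ U)) = (((QuotientGroup.mk' U).comp r) s₁)⁻¹ * ρ⁻¹ := by
        rw [← mul_inv_rev, hx, inv_inv]
      have hy' : ((y : G ⧸ U)) = (((QuotientGroup.mk' U).comp r) s₂)⁻¹ * ρ⁻¹ := by
        rw [← mul_inv_rev, hy, inv_inv]
      rw [QuotientGroup.mk_mul, hy']
      conv_rhs => rw [hx']
      simp only [MonoidHom.comp_apply, QuotientGroup.mk'_apply, map_mul, map_inv,
        QuotientGroup.mk_mul, QuotientGroup.mk_inv]
      group
    apply Quotient.sound
    apply DoubleCoset.rel_iff.2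
    have hmem : (r (s₂⁻¹ * s₁) * x)⁻¹ * y ∈ U := QuotientGroup.eq.1 hπ.symm
    refine ⟨r (s₂⁻¹ * s₁), ⟨_, rfl⟩, (r (s₂⁻¹ * s₁) * x)⁻¹ * y, hmem, ?_⟩
    group
  · intro ρ
    obtain ⟨g, hg⟩ := QuotientGroup.mk_surjective ((ρ : G ⧸ U))⁻¹
    refine ⟨Quotient.mk'' g, ?_⟩
    apply Subtype.ext
    show τ.rep ((g : G ⧸ U))⁻¹ = ρ
    rw [hg, inv_inv, ρ.2]

end Count

/-! ### The plug (P5) -/

variable (p : ℕ) [Fact p.Prime] (S : Finset Nat.Primes)

/-- **The local base case** (producer: 22b/49): for a level `U` trivialising `μ_p` and `q ∈ S`,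
the level cohomology `H²` with coefficients `𝔽_p` of the open subgroup `N = rq⁻¹(U)` of the local
Galois group at `q` (levels: `rq⁻¹(V)`, `V ≤ U` a finite level of `G_ℚ`) is finite of
dimension `≤ 1`.  (`N` is a variable equal to `U.comap rq` to make transport along equalities of
subgroups painless.) -/
def LocalBaseDim : Prop :=
  ∀ q : ↥S, ∀ U ∈ (globalLevels S).levels, (∀ s ∈ U, (Contract34.mu p).ρ s = 1) →
    ∀ (N : Subgroup (primeLocalGaloisGroup q.1)), N = U.comap (primeLocalToGlobal q.1) →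
    ∀ h : ∃ V ∈ (pullLevels (primeLocalToGlobal q.1)).levels, V ≤ N,
      Module.Finite (ZMod p)
        ((restrictLevels (pullLevels (primeLocalToGlobal q.1)) N h).H2 (triv (ZMod p) ↥N)) ∧
      finrank (ZMod p)
        ((restrictLevels (pullLevels (primeLocalToGlobal q.1)) N h).H2 (triv (ZMod p) ↥N)) ≤ 1

/-- **(P5) `Contract34.LocalDim` from the local base case.** -/
theorem localDim_of_base (hbase : LocalBaseDim p S) : Contract34.LocalDim p S := by
  intro q U hU hmu
  haveI hUn : U.Normal := (globalLevels S).normal U hU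
  haveI := (globalLevels S).finiteIndex U hU
  haveI : Finite (GQ ⧸ U) := Subgroup.finite_quotient_of_finiteIndex
  set rq := primeLocalToGlobal q.1 with hrq
  let π : GQ →* GQ ⧸ U := QuotientGroup.mk' U
  have hker : ∃ V ∈ (globalLevels S).levels, V ≤ π.ker :=
    ⟨U, hU, by rw [QuotientGroup.ker_mk']⟩
  have hker' : ∃ V ∈ (pullLevels rq).levels, V ≤ (π.comp rq).ker :=
    exists_le_ker_comp (isContinuous_pullLevels S rq) hker
  let co' : CoindCoord (π.comp rq) (Rep.res rq (Contract34.perm p U)) :=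
    (permCoord (k := ZMod p) U).res rq
  obtain ⟨τ⟩ := exists_orbSect (π.comp rq)
  have hN : (π.comp rq).ker = U.comap rq := by
    rw [← MonoidHom.comap_ker, QuotientGroup.ker_mk']
  obtain ⟨hfin, hrank⟩ := hbase q U hU hmu (π.comp rq).ker hN hker'
  let e : continuousH2 rq (Rep.res rq (Contract34.perm p U)) ≃ₗ[ZMod p]
      (τ.R → (kerLevels (pullLevels rq) hker').H2 (triv (ZMod p) ↥(π.comp rq).ker)) :=
    (continuousH2Equiv rq (Rep.res rq (Contract34.perm p U))).trans
      (orbitShapiroH2 (pullLevels rq) hker' co' τ)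
  haveI : Module.Finite (ZMod p)
      ((kerLevels (pullLevels rq) hker').H2 (triv (ZMod p) ↥(π.comp rq).ker)) := hfin
  haveI : Fintype τ.R := Fintype.ofFinite _
  haveI : Module.Free (ZMod p)
      ((kerLevels (pullLevels rq) hker').H2 (triv (ZMod p) ↥(π.comp rq).ker)) :=
    Module.Free.of_divisionRing _ _
  refine ⟨Module.Finite.equiv e.symm, ?_⟩
  rw [LinearEquiv.finrank_eq e, Module.finrank_pi_fintype, ← card_R_eq_card_doubleCoset U rq τ,
    Nat.card_eq_fintype_card, ← Finset.card_univ, Finset.card_eq_sum_ones]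
  exact Finset.sum_le_sum fun _ _ => hrank

end Fermat.Agent.S55.ShapiroLevel32
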