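/-
S55 / 48-SHAPIRO-LEVEL (helper32): transport half of plug (P6) `Contract34.GlobalCokerDim`.

For a level `U` (fixed field `L`) put `N = U = (QuotientGroup.mk' U).ker`, `𝒩 = kerLevels
(globalLevels S) _` (so `𝒩.H2 (triv k N) = H²(G_{L,S}, 𝔽_p)`), and for `q ∈ S` let
`N_q = rq⁻¹(U)` with `𝒱_q = kerLevels (pullLevels rq) _`.  A `PlaceSys` chooses for each `q`
orbit representatives `ρ` of `G_q` on `G_ℚ ⧸ U` (= the places of `L` above `q`) and lifts
`t q ρ : G_ℚ`.  Under the Shapiro isomorphisms the total localisation of `perm p U` becomes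

  `locU x q ρ = trivRes₂ (conjKer π rq (t q ρ)) x`   (restriction along `n ↦ t rq(n) t⁻¹`),

and `Contract34.GlobalCokerDim` at `U` follows from the same statement for `locU` (`LevelU`).
-/
import Fermat.Agent.S55.ShapiroLevel32.LocalDim
import Fermat.Agent.S55.Profin15.Bridge

set_option autoImplicit false

open CategoryTheory Module groupCohomology ExtCitation

namespace Fermat.Agent.S55.ShapiroLevel32

open Fermat.Agent.S55.Profin15
open Fermat.Agent.Lib.FrobeniusExists (Qb GQ)

variable (p : ℕ) [Fact p.Prime] (S : Finset Nat.Primes)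

/-- orbit representatives with lifts, for every `q ∈ S`: "the places of `L = Qb^U` above `S`". -/
structure PlaceSys (U : Subgroup GQ) [U.Normal] where
  /-- the orbit sections -/
  τ : ∀ q : ↥S, OrbSect ((QuotientGroup.mk' U).comp (primeLocalToGlobal q.1))
  /-- lifts of the representatives -/
  t : ∀ q : ↥S, (τ q).R → GQ
  ht : ∀ (q : ↥S) (ρ : (τ q).R), (QuotientGroup.mk' U) (t q ρ) = (ρ : GQ ⧸ U)

lemma exists_placeSys (U : Subgroup GQ) [U.Normal] : Nonempty (PlaceSys S U) := by
  classical
  let τ : ∀ q : ↥S, OrbSect ((QuotientGroup.mk' U).comp (primeLocalToGlobal q.1)) :=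
    fun q => Classical.choice (exists_orbSect _)
  have hs : ∀ (q : ↥S) (ρ : (τ q).R), ∃ g : GQ, (QuotientGroup.mk' U) g = (ρ : GQ ⧸ U) :=
    fun q ρ => QuotientGroup.mk'_surjective U _
  choose t ht using hs
  exact ⟨⟨τ, t, ht⟩⟩

section Level

variable {S} {U : Subgroup GQ} (hU : U ∈ (globalLevels S).levels)

include hU in
lemma hker_global [U.Normal] : ∃ V ∈ (globalLevels S).levels, V ≤ (QuotientGroup.mk' U).ker :=
  ⟨U, hU, by rw [QuotientGroup.ker_mk']⟩

include hU in
lemma hker_local [U.Normal] (q : ↥S) : ∃ V ∈ (pullLevels (primeLocalToGlobal q.1)).levels,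
    V ≤ ((QuotientGroup.mk' U).comp (primeLocalToGlobal q.1)).ker :=
  exists_le_ker_comp (isContinuous_pullLevels S (primeLocalToGlobal q.1)) (hker_global hU)

variable [U.Normal]

/-- the level structure of `G_{L,S} = U` -/
noncomputable abbrev levU : LevelStr ↥(QuotientGroup.mk' U).ker :=
  kerLevels (globalLevels S) (hker_global hU)

/-- the level structure of `G_{L_w} = rq⁻¹(U)` -/
noncomputable abbrev levQ (q : ↥S) :
    LevelStr ↥((QuotientGroup.mk' U).comp (primeLocalToGlobal q.1)).ker :=
  kerLevels (pullLevels (primeLocalToGlobal q.1)) (hker_local hU q)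

/-- `H²(G_{L,S}, 𝔽_p)` -/
abbrev H2U : Type := (levU hU).H2 (triv (ZMod p) ↥(QuotientGroup.mk' U).ker)

/-- `H²(G_{L_w}, 𝔽_p)` -/
abbrev H2Q (q : ↥S) : Type :=
  (levQ hU q).H2 (triv (ZMod p) ↥((QuotientGroup.mk' U).comp (primeLocalToGlobal q.1)).ker)

variable (P : PlaceSys S U)

/-- the `(q, ρ)`-localisation `H²(G_{L,S}, 𝔽_p) → H²(G_{L_w}, 𝔽_p)`, `w = t·w₀`: restriction along
`n ↦ t * rq n * t⁻¹` -/
noncomputable def locU₁ (q : ↥S) (ρ : (P.τ q).R) : H2U p hU →ₗ[ZMod p] H2Q p hU q :=
  trivRes₂ (ZMod p) (isContinuous_conjKer (isContinuous_pullLevels S (primeLocalToGlobal q.1))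
    (hker_global hU) (hker_local hU q) (P.t q ρ))

/-- the total localisation at level `U` -/
noncomputable def locU : H2U p hU →ₗ[ZMod p] (∀ q : ↥S, (P.τ q).R → H2Q p hU q) :=
  LinearMap.pi fun q => LinearMap.pi fun ρ => locU₁ p hU P q ρ

@[simp] lemma locU_apply (x : H2U p hU) (q : ↥S) (ρ : (P.τ q).R) :
    locU p hU P x q ρ = locU₁ p hU P q ρ x := rfl

variable [Finite (GQ ⧸ U)]

/-- global Shapiro: `H²(G_S, 𝔽_p[G/U]) ≃ H²(G_{L,S}, 𝔽_p)` -/
noncomputable def globalShapiro (σ : Sect (QuotientGroup.mk' U)) :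
    continuousH2S S (Contract34.perm p U) ≃ₗ[ZMod p] H2U p hU :=
  (continuousH2SEquiv S (Contract34.perm p U)).trans
    (shapiroH2 (globalLevels S) (hker_global hU) (permCoord (k := ZMod p) U) σ)

/-- local orbit Shapiro: `H²(G_q, 𝔽_p[G/U]) ≃ Π_{w ∣ q} H²(G_{L_w}, 𝔽_p)` -/
noncomputable def localShapiro (q : ↥S) :
    continuousH2 (primeLocalToGlobal q.1)
        (Rep.res (primeLocalToGlobal q.1) (Contract34.perm p U)) ≃ₗ[ZMod p]
      ((P.τ q).R → H2Q p hU q) :=
  (continuousH2Equiv (primeLocalToGlobal q.1)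
      (Rep.res (primeLocalToGlobal q.1) (Contract34.perm p U))).trans
    (orbitShapiroH2 (pullLevels (primeLocalToGlobal q.1)) (hker_local hU q)
      ((permCoord (k := ZMod p) U).res (primeLocalToGlobal q.1)) (P.τ q))

/-- **The localisation square**: under Shapiro, `locRes₂S` of `perm p U` is `locU`. -/
theorem localShapiro_locRes₂S (σ : Sect (QuotientGroup.mk' U))
    (x : continuousH2S S (Contract34.perm p U)) (q : ↥S) :
    localShapiro p hU P q (locRes₂S S (Contract34.perm p U) (primeLocalToGlobal q.1) x) =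
      locU p hU P (globalShapiro p hU σ x) q := by
  funext ρ
  have h1 := continuousH2Equiv_locRes₂S S (primeLocalToGlobal q.1) (Contract34.perm p U) x
  have h2 := mackey₂ (permCoord (k := ZMod p) U)
    (isContinuous_pullLevels S (primeLocalToGlobal q.1)) (hker_global hU) (hker_local hU q)
    (P.t q ρ) (continuousH2SEquiv S (Contract34.perm p U) x)
  rw [P.ht q ρ] at h2
  show shH2 _ _ (((permCoord (k := ZMod p) U).res (primeLocalToGlobal q.1)).shift (ρ : GQ ⧸ U))
    (continuousH2Equiv _ _ (locRes₂S S (Contract34.perm p U) (primeLocalToGlobal q.1) x)) = _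
  rw [h1, h2]
  rfl

/-- the level-`U` form of (P6) for a given system of places -/
def LevelU : Prop :=
  Module.Finite (ZMod p) (H2U p hU) ∧
    ∑ q : ↥S, finrank (ZMod p) ((P.τ q).R → H2Q p hU q) ≤
      finrank (ZMod p) (LinearMap.range (locU p hU P)) + 1

/-- the two total localisation maps have ranges of the same dimension -/
theorem finrank_range_locTotal_eq (σ : Sect (QuotientGroup.mk' U)) :
    finrank (ZMod p) (LinearMap.range (LinearMap.pi fun q : ↥S =>
      locRes₂S S (Contract34.perm p U) (primeLocalToGlobal q.1))) =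
    finrank (ZMod p) (LinearMap.range (locU p hU P)) := by
  set L := LinearMap.pi fun q : ↥S =>
    locRes₂S S (Contract34.perm p U) (primeLocalToGlobal q.1) with hL
  let E : (∀ q : ↥S, continuousH2 (primeLocalToGlobal q.1)
      (Rep.res (primeLocalToGlobal q.1) (Contract34.perm p U))) ≃ₗ[ZMod p]
      (∀ q : ↥S, (P.τ q).R → H2Q p hU q) :=
    LinearEquiv.piCongrRight fun q => localShapiro p hU P q
  have hsq : E.toLinearMap ∘ₗ L = locU p hU P ∘ₗ (globalShapiro p hU σ).toLinearMap := by
    apply LinearMap.ext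
    intro x
    funext q
    exact localShapiro_locRes₂S p hU P σ x q
  have hrange : LinearMap.range (locU p hU P) = (LinearMap.range L).map E.toLinearMap := by
    rw [← LinearMap.range_comp, hsq, LinearMap.range_comp, LinearEquiv.range,
      Submodule.map_top]
  rw [hrange]
  exact (LinearEquiv.finrank_eq (E.submoduleMap (LinearMap.range L)))

/-- **(P6) at the level `U` from its Shapiro transport.** -/
theorem globalCokerDim_at (h : LevelU p hU P) :
    Module.Finite (ZMod p) (continuousH2S S (Contract34.perm p U)) ∧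
    ∑ q : ↥S, finrank (ZMod p) (continuousH2 (primeLocalToGlobal q.1)
        (Rep.res (primeLocalToGlobal q.1) (Contract34.perm p U))) ≤
      finrank (ZMod p) (LinearMap.range (LinearMap.pi fun q : ↥S =>
        locRes₂S S (Contract34.perm p U) (primeLocalToGlobal q.1))) + 1 := by
  obtain ⟨σ⟩ := exists_sect (QuotientGroup.mk'_surjective U)
  obtain ⟨hfin, hle⟩ := h
  haveI := hfin
  refine ⟨Module.Finite.equiv (globalShapiro p hU σ).symm, ?_⟩
  rw [finrank_range_locTotal_eq p hU P σ]
  have : ∀ q : ↥S, finrank (ZMod p) (continuousH2 (primeLocalToGlobal q.1)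
      (Rep.res (primeLocalToGlobal q.1) (Contract34.perm p U))) =
      finrank (ZMod p) ((P.τ q).R → H2Q p hU q) :=
    fun q => LinearEquiv.finrank_eq (localShapiro p hU P q)
  simp only [this]
  exact hle

end Level

/-- the level form of (P6): for every level `U` trivialising `μ_p` there is a system of places
for which the statement holds in `H²(G_{L,S}, 𝔽_p) → Π_w H²(G_{L_w}, 𝔽_p)`. -/
def GlobalLevelU : Prop :=
  ∀ U (hU : U ∈ (globalLevels S).levels), (∀ s ∈ U, (Contract34.mu p).ρ s = 1) →
    haveI : U.Normal := (globalLevels S).normal U hU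
    ∃ P : PlaceSys S U, LevelU p hU P

/-- **(P6) `Contract34.GlobalCokerDim` from its level-`U` form.** -/
theorem globalCokerDim_of_levelU (h : GlobalLevelU p S) : Contract34.GlobalCokerDim p S := by
  intro U hU hmu
  haveI : U.Normal := (globalLevels S).normal U hU
  haveI := (globalLevels S).finiteIndex U hU
  haveI : Finite (GQ ⧸ U) := Subgroup.finite_quotient_of_finiteIndex
  obtain ⟨P, hP⟩ := h U hU hmu
  exact globalCokerDim_at p hU P hP

end Fermat.Agent.S55.ShapiroLevel32
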